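import Mathlib

/-!
# S20 / Arith: the final linear algebra over `ℚ`
-/

set_option autoImplicit false

namespace Fermat.Agent.S20

open Finset in
lemma sum_comp_weights {X : Type} [Fintype X] {R : Type*} [CommRing R] (k : X → ℤ)
    (hk : ∀ y, 0 ≤ k y ∧ k y ≤ 10 ∧ Even (k y)) (g : ℤ → R) :
    ∑ y, g (k y) =
      (#{y | k y = 0} : R) * g 0 + (#{y | k y = 2} : R) * g 2 + (#{y | k y = 4} : R) * g 4 +
      (#{y | k y = 6} : R) * g 6 + (#{y | k y = 8} : R) * g 8 + (#{y | k y = 10} : R) * g 10 := by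
  classical
  have hmaps : ∀ y ∈ (univ : Finset X), k y ∈ ({0, 2, 4, 6, 8, 10} : Finset ℤ) := by
    intro y _
    obtain ⟨h0, h10, ⟨a, ha⟩⟩ := hk y
    simp only [mem_insert, mem_singleton]
    omega
  rw [← Finset.sum_fiberwise_of_maps_to hmaps]
  have hfib : ∀ w : ℤ, ∑ y ∈ univ with k y = w, g (k y) = (#{y | k y = w} : R) * g w := by
    intro w
    rw [Finset.sum_congr rfl (fun y hy => by rw [(mem_filter.mp hy).2]), Finset.sum_const,
      nsmul_eq_mul]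
  simp only [hfib]
  rw [Finset.sum_insert (by decide), Finset.sum_insert (by decide), Finset.sum_insert (by decide),
    Finset.sum_insert (by decide), Finset.sum_insert (by decide), Finset.sum_singleton]
  ring

open Finset in
theorem final_arith {X : Type} [Fintype X] (k : X → ℤ)
    (hk : ∀ y, 0 ≤ k y ∧ k y ≤ 10 ∧ Even (k y)) (μ ν₂ ν₃ c : ℕ)
    (hμ : Fintype.card X = μ) (hm0 : Fintype.card {y // k y = 0} = 1)
    (hS : ∑ y, (Complex.I) ^ (-(k y)) = ν₂)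
    (ζ : ℂ) (hζ : ζ ^ 2 - ζ + 1 = 0) (hST : ∑ y, ζ ^ (-(k y)) = ν₃)
    (hsum : ∑ y, k y = 6 * ((μ : ℤ) - c)) :
    (Fintype.card {y // k y = 10} : ℚ) =
      1 + (μ : ℚ) / 12 - (ν₂ : ℚ) / 4 - (ν₃ : ℚ) / 3 - (c : ℚ) / 2 := by
  classical
  set m0 := #{y | k y = 0} with hm0def
  set m2 := #{y | k y = 2}
  set m4 := #{y | k y = 4}
  set m6 := #{y | k y = 6}
  set m8 := #{y | k y = 8}
  set m10 := #{y | k y = 10}
  have h0 : m0 = 1 := by rw [← hm0, Fintype.card_subtype]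
  have h10 : Fintype.card {y // k y = 10} = m10 := by rw [Fintype.card_subtype]
  -- (e1)
  have e1 : (m0 : ℝ) + m2 + m4 + m6 + m8 + m10 = μ := by
    have := sum_comp_weights (R := ℝ) k hk (fun _ => 1)
    simp only [sum_const, card_univ, nsmul_eq_mul, mul_one] at this
    rw [hμ] at this
    linarith
  -- (e4)
  have e4 : 2 * (m2 : ℝ) + 4 * m4 + 6 * m6 + 8 * m8 + 10 * m10 = 6 * ((μ : ℝ) - c) := by
    have := sum_comp_weights (R := ℝ) k hk (fun w => (w : ℝ))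
    have h2 : (∑ y, ((k y : ℤ) : ℝ)) = 6 * ((μ : ℝ) - c) := by
      rw [← Int.cast_sum, hsum]; push_cast; ring
    rw [h2] at this
    push_cast at this
    linarith
  -- (e2)
  have hI2 : (Complex.I) ^ (-(2 : ℤ)) = -1 := by
    rw [zpow_neg, zpow_ofNat, Complex.I_sq]; norm_num
  have hIpow : ∀ a : ℕ, (Complex.I) ^ (-(2 * (a : ℤ))) = (-1) ^ a := by
    intro a
    rw [show -(2 * (a : ℤ)) = (-2 : ℤ) * a by ring, zpow_mul, hI2, zpow_natCast]
  have i2 : (Complex.I) ^ (-2 : ℤ) = -1 := hI2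
  have i4 : (Complex.I) ^ (-4 : ℤ) = 1 := by
    rw [show (-4 : ℤ) = -(2 * ((2 : ℕ) : ℤ)) by norm_num, hIpow]; norm_num
  have i6 : (Complex.I) ^ (-6 : ℤ) = -1 := by
    rw [show (-6 : ℤ) = -(2 * ((3 : ℕ) : ℤ)) by norm_num, hIpow]; norm_num
  have i8 : (Complex.I) ^ (-8 : ℤ) = 1 := by
    rw [show (-8 : ℤ) = -(2 * ((4 : ℕ) : ℤ)) by norm_num, hIpow]; norm_num
  have i10 : (Complex.I) ^ (-10 : ℤ) = -1 := by
    rw [show (-10 : ℤ) = -(2 * ((5 : ℕ) : ℤ)) by norm_num, hIpow]; norm_num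
  have e2 : ((m0 : ℝ) + m4 + m8) - (m2 + m6 + m10) = ν₂ := by
    have := sum_comp_weights (R := ℂ) k hk (fun w => (Complex.I) ^ (-w))
    rw [hS] at this
    simp only [i2, i4, i6, i8, i10, neg_zero, zpow_zero] at this
    have h3 : ((ν₂ : ℝ) : ℂ) = (((m0 : ℝ) + m4 + m8 - (m2 + m6 + m10) : ℝ) : ℂ) := by
      push_cast; rw [this]; ring
    exact_mod_cast h3.symm
  -- (e3)
  have hz3 : ζ ^ 3 = -1 := by linear_combination (ζ + 1) * hζ
  have hzinv : ζ⁻¹ = 1 - ζ := inv_eq_of_mul_eq_one_right (by linear_combination -hζ)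
  have hzm2 : ζ ^ (-(2 : ℤ)) = -ζ := by
    rw [zpow_neg, zpow_ofNat, ← inv_pow, hzinv]
    linear_combination hζ
  have hzpow : ∀ a : ℕ, ζ ^ (-(2 * (a : ℤ))) = (-ζ) ^ a := by
    intro a
    rw [show -(2 * (a : ℤ)) = (-2 : ℤ) * a by ring, zpow_mul, hzm2, zpow_natCast]
  have z2 : ζ ^ (-2 : ℤ) = -ζ := hzm2
  have z4 : ζ ^ (-4 : ℤ) = ζ - 1 := by
    rw [show (-4 : ℤ) = -(2 * ((2 : ℕ) : ℤ)) by norm_num, hzpow]
    linear_combination hζ
  have z6 : ζ ^ (-6 : ℤ) = 1 := by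
    rw [show (-6 : ℤ) = -(2 * ((3 : ℕ) : ℤ)) by norm_num, hzpow]
    linear_combination -hz3
  have z8 : ζ ^ (-8 : ℤ) = -ζ := by
    rw [show (-8 : ℤ) = -(2 * ((4 : ℕ) : ℤ)) by norm_num, hzpow]
    linear_combination ζ * hz3
  have z10 : ζ ^ (-10 : ℤ) = ζ - 1 := by
    rw [show (-10 : ℤ) = -(2 * ((5 : ℕ) : ℤ)) by norm_num, hzpow]
    linear_combination (-ζ ^ 2) * hz3 + hζ
  have hzim : ζ.im ≠ 0 := by
    intro him
    have hre : ζ = (ζ.re : ℂ) := by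
      apply Complex.ext <;> simp [him]
    rw [hre] at hζ
    have : (ζ.re : ℝ) ^ 2 - ζ.re + 1 = 0 := by exact_mod_cast hζ
    nlinarith [sq_nonneg (ζ.re - 1 / 2)]
  have e3 : ((m0 : ℝ) + m6) - (m4 + m10) = ν₃ := by
    have := sum_comp_weights (R := ℂ) k hk (fun w => ζ ^ (-w))
    rw [hST] at this
    simp only [z2, z4, z6, z8, z10, neg_zero, zpow_zero] at this
    -- this : ν₃ = A + ζ * B with A, B real
    have hA : ((ν₃ : ℝ) : ℂ) =
        ((((m0 : ℝ) + m6) - (m4 + m10) : ℝ) : ℂ) + ζ * (((m4 : ℝ) + m10 - (m2 + m8) : ℝ) : ℂ) := by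
      push_cast; rw [this]; ring
    have him := congrArg Complex.im hA
    simp only [Complex.add_im, Complex.ofReal_im, Complex.mul_im, Complex.ofReal_re, mul_zero,
      add_zero, zero_add] at him
    have hB : ((m4 : ℝ) + m10 - (m2 + m8)) = 0 := by
      rcases mul_eq_zero.mp him.symm with h | h
      · exact absurd h hzim
      · exact h
    rw [hB] at hA
    simp only [Complex.ofReal_zero, mul_zero, add_zero] at hA
    exact_mod_cast hA.symm
  have h0' : (m0 : ℝ) = 1 := by exact_mod_cast h0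
  have key : (m10 : ℝ) = 1 + (μ : ℝ) / 12 - (ν₂ : ℝ) / 4 - (ν₃ : ℝ) / 3 - (c : ℝ) / 2 := by
    linarith
  rw [h10]
  have : ((m10 : ℚ) : ℝ) = ((1 + (μ : ℚ) / 12 - (ν₂ : ℚ) / 4 - (ν₃ : ℚ) / 3 - (c : ℚ) / 2 : ℚ) : ℝ) := by
    push_cast; exact key
  exact_mod_cast this

end Fermat.Agent.S20
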