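import Fermat.Agent.S20.Defs
import Fermat.Prelude.Thm_ModularForm_sturm_bound_Gamma0
import Fermat.Agent.S20.Basis.Koszul

/-!
# S20 / Basis: `M_*(Γ₀(N))` is a free graded module of finite rank over `M_*(SL(2,ℤ))`
-/

set_option autoImplicit false

open UpperHalfPlane ModularForm CongruenceSubgroup Matrix.SpecialLinearGroup
open scoped MatrixGroups ModularForm Manifold

namespace Fermat.Agent.S20

lemma basis_R_mul_R' {a b c : ℤ} {p q : ℍ → ℂ} (hp : p ∈ basis_R a) (hq : q ∈ basis_R b)
    (hc : a + b = c) : p * q ∈ basis_R c := by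
  obtain ⟨p, rfl⟩ := hp
  obtain ⟨q, rfl⟩ := hq
  subst hc
  exact ⟨p.mul q, rfl⟩

/-- The index type of the family of generators (weights in `[0, K]`). -/
abbrev basis_J (N : ℕ) (K : ℕ) : Type :=
  Σ w : ↥(Finset.Icc (0 : ℤ) (K : ℤ)), Fin (basis_d N (w : ℤ))

/-- The weights of the generators. -/
def basis_k (N K : ℕ) (j : basis_J N K) : ℤ := (j.1 : ℤ)

/-- The generators (as functions). -/
noncomputable def basis_f (N K : ℕ) [NeZero N] (j : basis_J N K) : ℍ → ℂ :=
  basis_b N (j.1 : ℤ) j.2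

lemma basis_f_mem (N K : ℕ) [NeZero N] (j : basis_J N K) :
    basis_f N K j ∈ basis_M N (basis_k N K j) :=
  basis_b_mem N _ _

lemma basis_gen_C (N K : ℕ) [NeZero N] (hK : ∀ w : ℤ, (K : ℤ) < w → basis_d N w = 0) (W : ℤ)
    (γ : Fin (basis_d N W) → ℂ) :
    ∃ p : basis_J N K → (ℍ → ℂ), (∀ j, p j ∈ basis_R (W - basis_k N K j)) ∧
      ∑ i, γ i • basis_b N W i = ∑ j, p j * basis_f N K j := by
  by_cases hW : W ∈ Finset.Icc (0 : ℤ) (K : ℤ)
  · refine ⟨fun j => if h : (j.1 : ℤ) = W then (fun _ => γ (h ▸ j.2)) else 0, ?_, ?_⟩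
    · intro j
      by_cases h : (j.1 : ℤ) = W
      · have h0 : W - basis_k N K j = 0 := by rw [basis_k, h, sub_self]
        simp only [dif_pos h]
        rw [h0]
        exact basis_const_mem_R _
      · simp only [dif_neg h]
        exact zero_mem _
    · rw [Fintype.sum_sigma, Finset.sum_eq_single (⟨W, hW⟩ : ↥(Finset.Icc (0 : ℤ) (K : ℤ)))]
      · apply Finset.sum_congr rfl
        intro i _
        simp only [dif_pos]
        funext τ
        simp [basis_f]
      · intro w _ hne
        apply Finset.sum_eq_zero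
        intro i _
        simp only [dif_neg (fun h => hne (Subtype.ext h)), zero_mul]
      · intro h
        exact absurd (Finset.mem_univ _) h
  · have hd : basis_d N W = 0 := by
      rw [Finset.mem_Icc, not_and_or] at hW
      rcases hW with h | h
      · have := basis_d_le N W
        rw [basis_m_neg N W (by omega)] at this
        omega
      · exact hK W (by omega)
    refine ⟨0, fun j => zero_mem _, ?_⟩
    have : IsEmpty (Fin (basis_d N W)) := by
      rw [hd]; infer_instance
    simp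

lemma basis_gen (N K : ℕ) [NeZero N] (hK : ∀ w : ℤ, (K : ℤ) < w → basis_d N w = 0) :
    ∀ n : ℕ, ∀ W : ℤ, W < n → ∀ g ∈ basis_M N W,
      ∃ p : basis_J N K → (ℍ → ℂ), (∀ j, p j ∈ basis_R (W - basis_k N K j)) ∧
        g = ∑ j, p j * basis_f N K j := by
  intro n
  induction n with
  | zero =>
    intro W hW g hg
    have h0 := basis_M_eq_zero_of_neg (by simpa using hW) hg
    subst h0
    exact ⟨0, fun j => zero_mem _, by simp⟩
  | succ n ih =>
    intro W hW g hg
    obtain ⟨γ, a, ha, b, hb, rfl⟩ := basis_decomp hg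
    obtain ⟨pc, hpc, hc⟩ := basis_gen_C N K hK W γ
    obtain ⟨pa, hpa, rfl⟩ := ih (W - 4) (by push_cast at hW; omega) a ha
    obtain ⟨pb, hpb, rfl⟩ := ih (W - 6) (by push_cast at hW; omega) b hb
    refine ⟨fun j => pc j + ⇑E₄ * pa j + ⇑E₆ * pb j, ?_, ?_⟩
    · intro j
      refine Submodule.add_mem _ (Submodule.add_mem _ (hpc j) ?_) ?_
      · exact basis_R_mul_R' basis_E4_mem (hpa j) (by ring)
      · exact basis_R_mul_R' basis_E6_mem (hpb j) (by ring)
    · rw [hc, Finset.mul_sum, Finset.mul_sum, ← Finset.sum_add_distrib,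
        ← Finset.sum_add_distrib]
      apply Finset.sum_congr rfl
      intro j _
      ring

/-- The combination map `(p_j) ↦ ∑ p_j f_j`. -/
noncomputable def basis_Phi (N K : ℕ) [NeZero N] (W : ℤ) :
    (∀ j : basis_J N K, ↥(basis_R (W - basis_k N K j))) →ₗ[ℂ] (ℍ → ℂ) :=
  ∑ j, (LinearMap.mulRight ℂ (basis_f N K j)).comp
    ((basis_R (W - basis_k N K j)).subtype.comp (LinearMap.proj j))

lemma basis_Phi_apply (N K : ℕ) [NeZero N] (W : ℤ)
    (p : ∀ j : basis_J N K, ↥(basis_R (W - basis_k N K j))) :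
    basis_Phi N K W p = ∑ j, (p j : ℍ → ℂ) * basis_f N K j := by
  simp [basis_Phi, LinearMap.sum_apply]

lemma basis_range_Phi (N K : ℕ) [NeZero N] (hK : ∀ w : ℤ, (K : ℤ) < w → basis_d N w = 0)
    (W : ℤ) : LinearMap.range (basis_Phi N K W) = basis_M N W := by
  apply le_antisymm
  · rintro _ ⟨p, rfl⟩
    rw [basis_Phi_apply]
    refine Submodule.sum_mem _ (fun j _ => ?_)
    exact basis_R_mul_M' (p j).2 (basis_f_mem N K j) (by ring)
  · intro g hg
    obtain ⟨p, hp, rfl⟩ := basis_gen N K hK (W.toNat + 1) W (by push_cast; omega) g hg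
    exact ⟨fun j => ⟨p j, hp j⟩, basis_Phi_apply N K W _⟩

lemma basis_finrank_dom (N K : ℕ) [NeZero N] (W : ℤ) :
    Module.finrank ℂ (∀ j : basis_J N K, ↥(basis_R (W - basis_k N K j))) =
      ∑ w ∈ Finset.Icc (0 : ℤ) (K : ℤ), basis_d N w * basis_rho (W - w) := by
  have : ∀ j : basis_J N K, FiniteDimensional ℂ ↥(basis_R (W - basis_k N K j)) :=
    fun j => basis_R_fd _
  rw [Module.finrank_pi_fintype]
  simp only [basis_finrank_R]
  rw [Fintype.sum_sigma]
  simp only [basis_k, Finset.sum_const, Finset.card_univ, Fintype.card_fin, smul_eq_mul]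
  exact Finset.sum_coe_sort (Finset.Icc (0 : ℤ) (K : ℤ)) (fun w => basis_d N w * basis_rho (W - w))

lemma basis_Phi_injective (N K : ℕ) [NeZero N] (hK : ∀ w : ℤ, (K : ℤ) < w → basis_d N w = 0)
    (W : ℤ) : Function.Injective (basis_Phi N K W) := by
  have : ∀ j : basis_J N K, FiniteDimensional ℂ ↥(basis_R (W - basis_k N K j)) :=
    fun j => basis_R_fd _
  have h1 := LinearMap.finrank_range_add_finrank_ker (basis_Phi N K W)
  rw [basis_range_Phi N K hK W, basis_finrank_dom,
    basis_num_final (basis_m N) (basis_d N) (basis_m_neg N) (basis_m_rec N) K hK W] at h1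
  have h2 : Module.finrank ℂ ↥(LinearMap.ker (basis_Phi N K W)) = 0 := by
    unfold basis_m at h1
    omega
  rw [← LinearMap.ker_eq_bot]
  exact Submodule.finrank_eq_zero.mp h2

lemma basis_indep (N K : ℕ) [NeZero N] (hK : ∀ w : ℤ, (K : ℤ) < w → basis_d N w = 0) (W : ℤ)
    (q : basis_J N K → (ℍ → ℂ)) (hq : ∀ j, q j ∈ basis_R (W - basis_k N K j))
    (h0 : ∑ j, q j * basis_f N K j = 0) : ∀ j, q j = 0 := by
  have h := basis_Phi_injective N K hK W (a₁ := fun j => ⟨q j, hq j⟩) (a₂ := 0) (by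
    rw [basis_Phi_apply, map_zero]; exact h0)
  intro j
  have hj := congrFun h j
  exact congrArg Subtype.val hj

lemma basis_card_J (N K : ℕ) :
    Fintype.card (basis_J N K) = ∑ w ∈ Finset.Icc (0 : ℤ) (K : ℤ), basis_d N w := by
  rw [Fintype.card_sigma]
  simp only [Fintype.card_fin]
  exact Finset.sum_coe_sort (Finset.Icc (0 : ℤ) (K : ℤ)) (fun w => basis_d N w)

lemma basis_exists_K (N : ℕ) [NeZero N] :
    ∃ K : ℕ, (∀ w : ℤ, (K : ℤ) < w → basis_d N w = 0) ∧
      ∑ w ∈ Finset.Icc (0 : ℤ) (K : ℤ), basis_d N w ≤ (Gamma0 N).index := by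
  have hb := basis_num_bound (basis_m N) (basis_d N) (Gamma0 N).index (basis_m_neg N)
    (basis_m_rec N) (basis_m_le N) (fun w hw => by
      have := basis_d_le N w
      rw [basis_m_odd N w hw] at this
      omega)
  obtain ⟨K, hK⟩ := basis_num_fin (basis_d N) (Gamma0 N).index hb
  exact ⟨K, hK, hb K⟩

/-- There is a finite homogeneous family generating `M_*(Γ₀(N))` freely over the level one forms,
with at most `[SL(2,ℤ) : Γ₀(N)]` members. -/
theorem exists_basis_fin (N : ℕ) [NeZero N] :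
    ∃ (n : ℕ) (k : Fin n → ℤ) (f : ∀ j, ModularForm (Γ N) (k j)),
      Gen k f ∧ Indep k f ∧ n ≤ Fintype.card (X N) := by
  obtain ⟨K, hK, hsum⟩ := basis_exists_K N
  let e : basis_J N K ≃ Fin (Fintype.card (basis_J N K)) := Fintype.equivFin _
  have hF : ∀ j : basis_J N K, ∃ F : ModularForm (Γ N) (basis_k N K j), ⇑F = basis_f N K j :=
    fun j => basis_f_mem N K j
  choose F hF using hF
  refine ⟨Fintype.card (basis_J N K), fun i => basis_k N K (e.symm i), fun i => F (e.symm i),
    ?_, ?_, ?_⟩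
  · intro w g
    obtain ⟨p, hp, hg⟩ := basis_gen N K hK (w.toNat + 1) w (by push_cast; omega) (⇑g) ⟨g, rfl⟩
    have hp' : ∀ j, ∃ P : ModularForm 𝒮ℒ (w - basis_k N K j), ⇑P = p j := hp
    choose P hP using hp'
    refine ⟨fun i => P (e.symm i), ?_⟩
    rw [hg, ← Equiv.sum_comp e.symm]
    apply Finset.sum_congr rfl
    intro i _
    rw [hF, hP]
  · intro w p hp
    have key := basis_indep N K hK w (fun j => ⇑(p (e j))) (fun j => by
      have : ⇑(p (e j)) ∈ basis_R (w - basis_k N K (e.symm (e j))) := ⟨_, rfl⟩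
      rwa [e.symm_apply_apply] at this) (by
      rw [← hp, ← Equiv.sum_comp e]
      apply Finset.sum_congr rfl
      intro j _
      rw [hF, e.symm_apply_apply])
    intro i
    have hi := key (e.symm i)
    have hcast : ∀ i' : Fin (Fintype.card (basis_J N K)), i' = i → ⇑(p i') = 0 → p i = 0 := by
      intro i' h
      subst h
      exact fun h => ModularForm.ext (fun τ => congrFun h τ)
    exact hcast _ (e.apply_symm_apply i) hi
  · rw [X.card_eq_index, basis_card_J]
    exact hsum

end Fermat.Agent.S20
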