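import Fermat.Agent.S20.Defs

/-!
# S20 / Count: pure counting in `ZMod N` (no modular forms, no `SL(2,ℤ)`)

A pair `(u, v) : ZMod N × ZMod N` is *primitive* if `IsCoprime u v` (in the ring `ZMod N`).
-/

set_option autoImplicit false

namespace Fermat.Agent.S20

section CountAux

open Finset ArithmeticFunction

/-! ### The arithmetic identity `∑_{d ∣ N} φ(N/d) · (N/d) · φ(d) = φ(N) · ψ(N)` -/

/-- Euler's totient as an arithmetic function. -/
def count_phi : ArithmeticFunction ℕ := ⟨Nat.totient, Nat.totient_zero⟩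

lemma count_phi_apply (n : ℕ) : count_phi n = Nat.totient n := rfl

lemma count_phi_mult : count_phi.IsMultiplicative :=
  ⟨Nat.totient_one, fun h => Nat.totient_mul h⟩

/-- The indicator function of the squarefree numbers as an arithmetic function. -/
def count_sqf : ArithmeticFunction ℕ := ⟨fun n => if Squarefree n then 1 else 0, by simp⟩

lemma count_sqf_apply (n : ℕ) : count_sqf n = if Squarefree n then 1 else 0 := rfl

lemma count_sqf_mult : count_sqf.IsMultiplicative := by
  refine ⟨by simp [count_sqf_apply], fun {m n} h => ?_⟩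
  simp only [count_sqf_apply, Nat.squarefree_mul h]
  split_ifs <;> simp_all

/-- The Dedekind psi function as an arithmetic function. -/
def count_psi : ArithmeticFunction ℕ := count_sqf * ArithmeticFunction.id

lemma count_psi_apply (n : ℕ) : count_psi n = ModularCurve.dedekindPsi n := by
  rw [count_psi, mul_apply,
    Nat.sum_divisorsAntidiagonal (fun a b => count_sqf a * ArithmeticFunction.id b),
    ModularCurve.dedekindPsi, Finset.sum_filter]
  refine Finset.sum_congr rfl fun d _ => ?_
  rw [count_sqf_apply]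
  split_ifs <;> simp

lemma count_psi_mult : count_psi.IsMultiplicative := count_sqf_mult.mul isMultiplicative_id

/-- `φ · ψ` as an arithmetic function. -/
def count_H : ArithmeticFunction ℕ := count_phi.pmul count_psi

/-- The convolution `(φ · id) * φ` as an arithmetic function. -/
def count_F : ArithmeticFunction ℕ := (count_phi.pmul ArithmeticFunction.id) * count_phi

lemma count_F_apply (n : ℕ) :
    count_F n = ∑ d ∈ n.divisors, Nat.totient (n / d) * (n / d * Nat.totient d) := by
  rw [count_F, mul_apply, Nat.sum_divisorsAntidiagonal'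
    (fun a b => (count_phi.pmul ArithmeticFunction.id) a * count_phi b)]
  refine Finset.sum_congr rfl fun d _ => ?_
  simp [count_phi_apply, mul_assoc]

lemma count_phi_mul_zeta : count_phi * zeta = ArithmeticFunction.id := by
  ext n
  rw [mul_zeta_apply]
  exact Nat.sum_totient n

lemma count_F_mul_zeta : count_F * zeta = pow 2 := by
  rw [count_F, mul_assoc, count_phi_mul_zeta]
  ext n
  rw [mul_apply]
  have h : ∀ x ∈ n.divisorsAntidiagonal,
      (count_phi.pmul ArithmeticFunction.id) x.1 * ArithmeticFunction.id x.2 =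
        Nat.totient x.1 * n := by
    intro x hx
    rw [Nat.mem_divisorsAntidiagonal] at hx
    simp [count_phi_apply, mul_assoc, hx.1]
  rw [Finset.sum_congr rfl h, Nat.sum_divisorsAntidiagonal (fun a _ => Nat.totient a * n),
    ← Finset.sum_mul, Nat.sum_totient]
  simp [sq]

lemma count_psi_prime_pow {p : ℕ} (hp : p.Prime) (k : ℕ) :
    count_psi (p ^ (k + 1)) = p ^ (k + 1) + p ^ k := by
  rw [count_psi_apply, ModularCurve.dedekindPsi, Finset.sum_filter, Nat.sum_divisors_prime_pow hp,
    Finset.sum_range_succ', Finset.sum_range_succ']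
  have h0 : ∀ x ∈ range k,
      (if Squarefree (p ^ (x + 1 + 1)) then p ^ (k + 1) / p ^ (x + 1 + 1) else 0) = 0 := by
    intro x _
    rw [if_neg]
    rw [Nat.squarefree_pow_iff hp.ne_one (by omega)]
    omega
  rw [Finset.sum_eq_zero h0]
  have h1 : Squarefree (p ^ (0 + 1)) := by simpa using hp.squarefree
  have h2 : Squarefree (p ^ 0) := by simp
  rw [if_pos h1, if_pos h2]
  have h3 : p ^ (k + 1) / p ^ (0 + 1) = p ^ k := by
    rw [zero_add, pow_one, pow_succ, Nat.mul_div_cancel _ hp.pos]
  rw [h3]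
  simp [add_comm]

lemma count_H_sum_prime_pow {p : ℕ} (hp : p.Prime) (i : ℕ) :
    ∑ k ∈ range (i + 1), count_H (p ^ k) = (p ^ i) ^ 2 := by
  induction i with
  | zero => simp [count_H, count_phi_apply, count_psi_apply]
  | succ i ih =>
    rw [Finset.sum_range_succ, ih, count_H, pmul_apply, count_psi_prime_pow hp, count_phi_apply,
      Nat.totient_prime_pow_succ hp]
    obtain ⟨q, rfl⟩ : ∃ q, p = q + 1 := ⟨p - 1, (Nat.succ_pred_eq_of_pos hp.pos).symm⟩
    simp only [Nat.add_sub_cancel]
    ring

lemma count_H_mult : count_H.IsMultiplicative := count_phi_mult.pmul count_psi_mult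

lemma count_H_mul_zeta : count_H * zeta = pow 2 := by
  rw [IsMultiplicative.eq_iff_eq_on_prime_powers _ (count_H_mult.mul isMultiplicative_zeta) _
    isMultiplicative_pow]
  intro p i hp
  rw [mul_zeta_apply, Nat.sum_divisors_prime_pow hp, count_H_sum_prime_pow hp]
  simp

lemma count_eq_of_mul_zeta_eq {f g : ArithmeticFunction ℕ} (h : f * zeta = g * zeta) : f = g := by
  ext n
  induction n using Nat.strong_induction_on with
  | _ n ih =>
    rcases Nat.eq_zero_or_pos n with rfl | hn
    · simp
    have h1 := congrArg (fun F : ArithmeticFunction ℕ => F n) h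
    simp only [mul_zeta_apply] at h1
    rw [← Nat.cons_self_properDivisors hn.ne', Finset.sum_cons, Finset.sum_cons] at h1
    have h2 : ∑ d ∈ n.properDivisors, f d = ∑ d ∈ n.properDivisors, g d :=
      Finset.sum_congr rfl fun d hd => ih d (Nat.mem_properDivisors.mp hd).2
    omega

lemma count_F_eq_H : count_F = count_H :=
  count_eq_of_mul_zeta_eq (count_F_mul_zeta.trans count_H_mul_zeta.symm)

/-- The arithmetic identity behind `card_prim`. -/
lemma count_sum_totient_eq (N : ℕ) :
    ∑ d ∈ N.divisors, Nat.totient (N / d) * (N / d * Nat.totient d) =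
      Nat.totient N * ModularCurve.dedekindPsi N := by
  rw [← count_F_apply, count_F_eq_H, count_H, pmul_apply, count_phi_apply, count_psi_apply]

/-! ### Counting in `ZMod N` -/

/-- Primitivity in `ZMod N` in terms of representatives. -/
lemma count_isCoprime_iff {N : ℕ} [NeZero N] (u v : ZMod N) :
    IsCoprime u v ↔ Nat.Coprime u.val (Nat.gcd v.val N) := by
  constructor
  · rintro ⟨a, b, h⟩
    have h1 : ((a.val * u.val + b.val * v.val : ℕ) : ZMod N) = ((1 : ℕ) : ZMod N) := by
      push_cast
      simp only [ZMod.natCast_zmod_val]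
      exact h
    rw [ZMod.natCast_eq_natCast_iff] at h1
    have h2 := h1.gcd_eq
    rw [Nat.gcd_one_left] at h2
    apply Nat.eq_one_of_dvd_one
    rw [← h2]
    apply Nat.dvd_gcd
    · apply Dvd.dvd.add
      · exact Dvd.dvd.mul_left (Nat.gcd_dvd_left _ _) _
      · exact Dvd.dvd.mul_left ((Nat.gcd_dvd_right _ _).trans (Nat.gcd_dvd_left _ _)) _
    · exact (Nat.gcd_dvd_right _ _).trans (Nat.gcd_dvd_right _ _)
  · intro h
    have h1 : IsCoprime (u.val : ℤ) ((Nat.gcd v.val N : ℕ) : ℤ) := Nat.isCoprime_iff_coprime.mpr h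
    have h2 := h1.map (Int.castRingHom (ZMod N))
    simp only [eq_intCast, Int.cast_natCast, ZMod.natCast_zmod_val] at h2
    have h3 : ((Nat.gcd v.val N : ℕ) : ZMod N) = v * ((Nat.gcdA v.val N : ℤ) : ZMod N) := by
      have := congrArg (Int.cast : ℤ → ZMod N) (Nat.gcd_eq_gcd_ab v.val N)
      push_cast at this
      simpa using this
    rw [h3] at h2
    exact h2.of_mul_right_left

lemma count_card_coprime_range (d t : ℕ) :
    #{k ∈ range (d * t) | d.Coprime k} = t * Nat.totient d := by
  induction t with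
  | zero => simp
  | succ t ih =>
    have h : range (d * (t + 1)) = range (d * t) ∪ Ico (d * t) (d * t + d) := by
      ext x
      simp only [Finset.mem_range, Finset.mem_union, Finset.mem_Ico, mul_add, mul_one]
      omega
    rw [h, Finset.filter_union, Finset.card_union_of_disjoint, ih,
      Nat.filter_coprime_Ico_eq_totient]
    · ring
    · apply Finset.disjoint_filter_filter
      rw [Finset.disjoint_left]
      intro x hx hx'
      simp only [Finset.mem_range, Finset.mem_Ico] at hx hx'
      omega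

lemma count_card_coprime_range' {d N : ℕ} (h : d ∣ N) :
    #{k ∈ range N | d.Coprime k} = N / d * Nat.totient d := by
  obtain ⟨t, rfl⟩ := h
  rcases Nat.eq_zero_or_pos d with rfl | hd
  · simp
  · rw [count_card_coprime_range, Nat.mul_div_cancel_left _ hd]

lemma count_sum_zmod (N : ℕ) [NeZero N] (f : ℕ → ℕ) :
    ∑ u : ZMod N, f u.val = ∑ k ∈ range N, f k := by
  cases N with
  | zero => exact absurd rfl (NeZero.ne 0)
  | succ n => exact Fin.sum_univ_eq_sum_range f (n + 1)

/-- The number of `u` such that `(u, v)` is primitive. -/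
lemma count_card_fiber {N : ℕ} [NeZero N] (v : ZMod N) :
    Nat.card {u : ZMod N // IsCoprime u v} =
      N / Nat.gcd v.val N * Nat.totient (Nat.gcd v.val N) := by
  classical
  rw [Nat.card_eq_fintype_card, Fintype.card_subtype, Finset.card_filter]
  have h1 : ∀ u : ZMod N, (if IsCoprime u v then 1 else 0) =
      if (Nat.gcd v.val N).Coprime u.val then 1 else 0 := by
    intro u
    simp only [count_isCoprime_iff, Nat.coprime_comm]
  have h3 := count_sum_zmod N (fun k : ℕ => if (Nat.gcd v.val N).Coprime k then 1 else 0)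
  rw [Finset.sum_congr rfl fun u _ => h1 u, h3, ← Finset.card_filter]
  exact count_card_coprime_range' (Nat.gcd_dvd_right _ _)

/-- Sums over `ZMod N` of functions of `gcd (v, N)`. -/
lemma count_sum_gcd (N : ℕ) [NeZero N] (h : ℕ → ℕ) :
    ∑ v : ZMod N, h (Nat.gcd v.val N) = ∑ d ∈ N.divisors, Nat.totient (N / d) * h d := by
  rw [count_sum_zmod N (fun k => h (Nat.gcd k N))]
  have hmaps : ∀ k ∈ range N, Nat.gcd N k ∈ N.divisors := fun k _ =>
    Nat.mem_divisors.2 ⟨Nat.gcd_dvd_left _ _, NeZero.ne N⟩
  rw [← Finset.sum_fiberwise_of_maps_to hmaps]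
  refine Finset.sum_congr rfl fun d hd => ?_
  rw [Nat.totient_div_of_dvd (Nat.dvd_of_mem_divisors hd), Finset.card_eq_sum_ones,
    Finset.sum_mul]
  refine Finset.sum_congr rfl fun k hk => ?_
  rw [Finset.mem_filter] at hk
  rw [Nat.gcd_comm, hk.2, one_mul]

/-- Fibering a set of pairs over the second coordinate. -/
lemma count_card_pairs {α β : Type} [Fintype β] [Finite α] (P : α → β → Prop) :
    Nat.card {x : α × β // P x.1 x.2} = ∑ b : β, Nat.card {a : α // P a b} := by
  rw [← Nat.card_sigma]
  exact Nat.card_congr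
    { toFun := fun x => ⟨x.1.2, x.1.1, x.2⟩
      invFun := fun s => ⟨(s.2.1, s.1), s.2.2⟩
      left_inv := fun _ => rfl
      right_inv := fun _ => rfl }

lemma count_card_multiples (c t : ℕ) (hc : 0 < c) : #{m ∈ range (c * t) | c ∣ m} = t := by
  have h : {m ∈ range (c * t) | c ∣ m} = (range t).image (c * ·) := by
    ext m
    simp only [Finset.mem_filter, Finset.mem_range, Finset.mem_image]
    constructor
    · rintro ⟨hm, k, rfl⟩
      exact ⟨k, lt_of_mul_lt_mul_left hm (Nat.zero_le c), rfl⟩
    · rintro ⟨k, hk, rfl⟩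
      exact ⟨Nat.mul_lt_mul_of_pos_left hk hc, dvd_mul_right c k⟩
  rw [h, Finset.card_image_of_injective _ (mul_right_injective₀ hc.ne'), Finset.card_range]

lemma count_card_multiples' {c N : ℕ} (hN : 0 < N) (h : c ∣ N) :
    #{m ∈ range N | c ∣ m} = N / c := by
  obtain ⟨t, rfl⟩ := h
  have hc : 0 < c := Nat.pos_of_mul_pos_right hN
  rw [count_card_multiples c t hc, Nat.mul_div_cancel_left _ hc]

lemma count_dvd_mul_iff {N w m : ℕ} (hN : 0 < N) : N ∣ m * w ↔ N / Nat.gcd N w ∣ m := by
  have hg : 0 < Nat.gcd N w := Nat.gcd_pos_of_pos_left w hN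
  have hcop : Nat.Coprime (N / Nat.gcd N w) (w / Nat.gcd N w) := Nat.coprime_div_gcd_div_gcd hg
  have hN' : N / Nat.gcd N w * Nat.gcd N w = N := Nat.div_mul_cancel (Nat.gcd_dvd_left N w)
  have hw' : w / Nat.gcd N w * Nat.gcd N w = w := Nat.div_mul_cancel (Nat.gcd_dvd_right N w)
  constructor
  · intro h
    have h1 : N / Nat.gcd N w * Nat.gcd N w ∣ m * (w / Nat.gcd N w) * Nat.gcd N w := by
      rw [hN', mul_assoc, hw']
      exact h
    have h2 := Nat.dvd_of_mul_dvd_mul_right hg h1
    exact hcop.dvd_of_dvd_mul_right h2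
  · intro h
    calc N = N / Nat.gcd N w * Nat.gcd N w := hN'.symm
      _ ∣ m * w := Nat.mul_dvd_mul h (Nat.gcd_dvd_right N w)

lemma count_card_mul_eq_zero {N : ℕ} [NeZero N] (x : ZMod N) :
    #((range N).filter fun m : ℕ => (m : ZMod N) * x = 0) = Nat.gcd N x.val := by
  have hN : 0 < N := NeZero.pos N
  have h1 : ∀ m : ℕ, (m : ZMod N) * x = 0 ↔ N / Nat.gcd N x.val ∣ m := by
    intro m
    rw [← count_dvd_mul_iff hN, ← ZMod.natCast_eq_zero_iff]
    push_cast
    rw [ZMod.natCast_zmod_val]
  simp only [h1]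
  rw [count_card_multiples' hN (Nat.div_dvd_of_dvd (Nat.gcd_dvd_left _ _)),
    Nat.div_div_self (Nat.gcd_dvd_left _ _) hN.ne']

lemma count_gcd_sq {N w : ℕ} (hN : 0 < N) :
    Nat.gcd N (w ^ 2) = Nat.gcd w N * Nat.gcd (Nat.gcd w N) (N / Nat.gcd w N) := by
  have hg : 0 < Nat.gcd w N := Nat.gcd_pos_of_pos_right w hN
  obtain ⟨g, a, b, hg0, hcop, rfl, rfl⟩ := Nat.exists_coprime' hg
  have hgcd : Nat.gcd (a * g) (b * g) = g := by
    rw [Nat.gcd_mul_right, hcop.gcd_eq_one, one_mul]
  rw [hgcd, Nat.mul_div_cancel _ hg0]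
  have h : (a * g) ^ 2 = (a ^ 2 * g) * g := by ring
  rw [h, Nat.gcd_mul_right, Nat.Coprime.gcd_mul_left_cancel_right g (Nat.Coprime.pow_left 2 hcop),
    Nat.gcd_comm, mul_comm]

lemma count_card_ann {N : ℕ} [NeZero N] (v : ZMod N) :
    #((range N).filter fun m : ℕ => (m : ZMod N) * v ^ 2 = 0) =
      Nat.gcd v.val N * Nat.gcd (Nat.gcd v.val N) (N / Nat.gcd v.val N) := by
  rw [count_card_mul_eq_zero, ← count_gcd_sq (NeZero.pos N)]
  have h : v ^ 2 = ((v.val ^ 2 : ℕ) : ZMod N) := by
    push_cast
    rw [ZMod.natCast_zmod_val]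
  rw [h, ZMod.val_natCast, Nat.gcd_comm, ← Nat.gcd_rec, Nat.gcd_comm]

end CountAux

/-- The number of primitive pairs mod `N` is `φ(N) · ψ(N)`. -/
theorem card_prim (N : ℕ) [NeZero N] :
    Nat.card {v : ZMod N × ZMod N // IsCoprime v.1 v.2} =
      Nat.totient N * ModularCurve.dedekindPsi N := by
  rw [count_card_pairs (fun u v : ZMod N => IsCoprime u v)]
  simp only [count_card_fiber]
  rw [count_sum_gcd N (fun d => N / d * Nat.totient d)]
  exact count_sum_totient_eq N

/-- Burnside-type count for the unipotent action `(u, v) ↦ (u + m v, v)`: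
`∑_{m < N} #{primitive (u, v) : m · v² = 0} = φ(N) · N · cuspCount N`. -/
theorem sum_card_prim_fix (N : ℕ) [NeZero N] :
    ∑ m ∈ Finset.range N,
        Nat.card {v : ZMod N × ZMod N // IsCoprime v.1 v.2 ∧ (m : ZMod N) * v.2 ^ 2 = 0} =
      Nat.totient N * (N * ModularCurve.cuspCount N) := by
  classical
  have h1 : ∀ m : ℕ,
      Nat.card {v : ZMod N × ZMod N // IsCoprime v.1 v.2 ∧ (m : ZMod N) * v.2 ^ 2 = 0} =
        ∑ v : ZMod N, if (m : ZMod N) * v ^ 2 = 0 then
          N / Nat.gcd v.val N * Nat.totient (Nat.gcd v.val N) else 0 := by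
    intro m
    rw [count_card_pairs (fun u v : ZMod N => IsCoprime u v ∧ (m : ZMod N) * v ^ 2 = 0)]
    refine Finset.sum_congr rfl fun v _ => ?_
    split_ifs with h
    · rw [← count_card_fiber]
      exact Nat.card_congr (Equiv.subtypeEquivRight fun u => by simp [h])
    · rw [Nat.card_eq_zero]
      left
      exact ⟨fun x => h x.2.2⟩
  simp only [h1]
  rw [Finset.sum_comm]
  have h2 : ∀ v : ZMod N,
      (∑ m ∈ Finset.range N, if (m : ZMod N) * v ^ 2 = 0 then
        N / Nat.gcd v.val N * Nat.totient (Nat.gcd v.val N) else 0) =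
      Nat.gcd v.val N * Nat.gcd (Nat.gcd v.val N) (N / Nat.gcd v.val N) *
        (N / Nat.gcd v.val N * Nat.totient (Nat.gcd v.val N)) := by
    intro v
    rw [← Finset.sum_filter, Finset.sum_const, smul_eq_mul, count_card_ann]
  rw [Finset.sum_congr rfl fun v _ => h2 v,
    count_sum_gcd N (fun d => d * Nat.gcd d (N / d) * (N / d * Nat.totient d)),
    ModularCurve.cuspCount, Finset.mul_sum, Finset.mul_sum]
  refine Finset.sum_congr rfl fun d hd => ?_
  have hN : d * (N / d) = N := Nat.mul_div_cancel' (Nat.dvd_of_mem_divisors hd)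
  have key := Nat.totient_gcd_mul_totient_mul d (N / d)
  rw [hN] at key
  calc Nat.totient (N / d) * (d * Nat.gcd d (N / d) * (N / d * Nat.totient d))
      = (d * (N / d)) * (Nat.totient d * Nat.totient (N / d) * Nat.gcd d (N / d)) := by ring
    _ = Nat.totient N * (N * Nat.totient (Nat.gcd d (N / d))) := by
        rw [← key, hN]
        ring

end Fermat.Agent.S20
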