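import Fermat.Agent.S20.Defs
import Fermat.Agent.S20.Count

/-!
# S20 / Comb: combinatorics of the coset space `X N = SL(2,ℤ) ⧸ Γ₀(N)`

Model: `g Γ₀(N) ↦ [g 0 0 : g 1 0]` identifies `X N` with the projective line over `ZMod N`
(primitive column vectors modulo units), equivariantly for left multiplication.
-/

set_option autoImplicit false

open CongruenceSubgroup
open scoped MatrixGroups

namespace Fermat.Agent.S20

/-- Elementary lifting lemma: if `gcd(x, n)` is coprime to `c ≠ 0`, some `x + k n` is coprime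
to `c`. -/
lemma comb_exists_coprime_add_mul (x n c : ℕ) (hc : c ≠ 0) (h : Nat.Coprime (Nat.gcd x n) c) :
    ∃ k : ℕ, Nat.Coprime (x + k * n) c := by
  classical
  let ps : Finset ℕ := {p ∈ c.primeFactors | ¬p ∣ x}
  use ps.prod id
  apply Nat.coprime_of_dvd
  intro p pp hp hpc
  by_cases hpx : p ∣ x
  · have h' := Nat.dvd_sub hp hpx
    rw [add_comm, Nat.add_sub_cancel] at h'
    rcases pp.dvd_mul.mp h' with h' | h'
    · have ⟨q, hq, hq'⟩ := (pp.prime.dvd_finsetProd_iff id).mp h'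
      rw [Finset.mem_filter, Nat.mem_primeFactors,
        ← (Nat.prime_dvd_prime_iff_eq pp hq.1.1).mp hq'] at hq
      exact hq.2 hpx
    · exact Nat.Prime.not_coprime_iff_dvd.mpr ⟨p, pp, Nat.dvd_gcd hpx h', hpc⟩ h
  · have pps : p ∈ ps := Finset.mem_filter.mpr ⟨Nat.mem_primeFactors.mpr ⟨pp, hpc, hc⟩, hpx⟩
    have h' := Nat.dvd_sub hp ((Finset.dvd_prod_of_mem id pps).mul_right n)
    rw [Nat.add_sub_cancel] at h'
    contradiction

/-- The first column of `g` modulo `N`. -/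
def comb_cls (N : ℕ) (g : SL(2, ℤ)) : ZMod N × ZMod N := (((g 0 0 : ℤ) : ZMod N), ((g 1 0 : ℤ) : ZMod N))

lemma comb_cls_isCoprime (N : ℕ) (g : SL(2, ℤ)) : IsCoprime (comb_cls N g).1 (comb_cls N g).2 := by
  refine ⟨((g 1 1 : ℤ) : ZMod N), ((-(g 0 1) : ℤ) : ZMod N), ?_⟩
  have h := g.det_coe
  rw [Matrix.det_fin_two] at h
  have h2 : (((g 1 1) * (g 0 0) + (-(g 0 1)) * (g 1 0) : ℤ) : ZMod N) = ((1 : ℤ) : ZMod N) := by
    congr 1
    linarith
  simpa [comb_cls] using h2

/-- Every primitive vector mod `N` is the first column of a matrix in `SL(2,ℤ)`. -/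
lemma comb_lift (N : ℕ) [NeZero N] (v : ZMod N × ZMod N) (hv : IsCoprime v.1 v.2) :
    ∃ g : SL(2, ℤ), comb_cls N g = v := by
  obtain ⟨a, b, hab⟩ := hv
  set x : ℕ := v.1.val with hx
  set c : ℕ := v.2.val + N with hc
  have hxv : (x : ZMod N) = v.1 := by simp [hx]
  have hcv : (c : ZMod N) = v.2 := by simp [hc]
  have hc0 : c ≠ 0 := by
    have := NeZero.pos N
    omega
  have h1 : (((a.val : ℤ) * x + (b.val : ℤ) * c : ℤ) : ZMod N) = ((1 : ℤ) : ZMod N) := by
    push_cast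
    rw [hxv, hcv]
    simpa using hab
  rw [ZMod.intCast_eq_intCast_iff_dvd_sub] at h1
  have hcop : Nat.Coprime (Nat.gcd x N) c := by
    rw [Nat.coprime_iff_gcd_eq_one]
    set d := Nat.gcd (Nat.gcd x N) c with hd
    have hdx : (d : ℤ) ∣ (x : ℤ) :=
      Int.natCast_dvd_natCast.mpr ((Nat.gcd_dvd_left _ _).trans (Nat.gcd_dvd_left _ _))
    have hdN : (d : ℤ) ∣ (N : ℤ) :=
      Int.natCast_dvd_natCast.mpr ((Nat.gcd_dvd_left _ _).trans (Nat.gcd_dvd_right _ _))
    have hdc : (d : ℤ) ∣ (c : ℤ) := Int.natCast_dvd_natCast.mpr (Nat.gcd_dvd_right _ _)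
    have h2 : (d : ℤ) ∣ 1 := by
      have h3 : (d : ℤ) ∣ (a.val : ℤ) * x + (b.val : ℤ) * c :=
        dvd_add (hdx.mul_left _) (hdc.mul_left _)
      have h4 := dvd_add (hdN.trans h1) h3
      simpa using h4
    exact Nat.dvd_one.mp (Int.natCast_dvd_natCast.mp (by simpa using h2))
  obtain ⟨k, hk⟩ := comb_exists_coprime_add_mul x N c hc0 hcop
  have hk' : IsCoprime (((x + k * N : ℕ) : ℤ)) ((c : ℕ) : ℤ) := Nat.isCoprime_iff_coprime.mpr hk
  obtain ⟨g, hg0, hg1⟩ := hk'.exists_SL2_col 0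
  refine ⟨g, ?_⟩
  rw [comb_cls, hg0, hg1]
  ext
  · simp [hxv]
  · simp [hcv]

/-- Two cosets agree iff the "cross product" of the first columns vanishes mod `N`. -/
lemma comb_mk_eq_mk_iff (N : ℕ) (g g' : SL(2, ℤ)) :
    (X.mk g : X N) = X.mk g' ↔
      (comb_cls N g).1 * (comb_cls N g').2 - (comb_cls N g).2 * (comb_cls N g').1 = 0 := by
  rw [X.mk_eq_mk, Gamma0_mem]
  have h : ((g⁻¹ * g' : SL(2, ℤ)) 1 0 : ℤ) = (g 0 0) * (g' 1 0) - (g 1 0) * (g' 0 0) := by
    rw [Matrix.SpecialLinearGroup.coe_mul, Matrix.SpecialLinearGroup.coe_inv,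
      Matrix.adjugate_fin_two, Matrix.mul_apply, Fin.sum_univ_two]
    simp
    ring
  rw [h]
  simp [comb_cls]

/-- The quantity whose vanishing says that `h • v` is proportional to `v`. -/
def comb_cross (N : ℕ) (h : SL(2, ℤ)) (v : ZMod N × ZMod N) : ZMod N :=
  (((h 0 0 : ℤ) : ZMod N) * v.1 + ((h 0 1 : ℤ) : ZMod N) * v.2) * v.2 -
    (((h 1 0 : ℤ) : ZMod N) * v.1 + ((h 1 1 : ℤ) : ZMod N) * v.2) * v.1

lemma comb_fix_iff (N : ℕ) (h g : SL(2, ℤ)) :
    h • (X.mk g : X N) = X.mk g ↔ comb_cross N h (comb_cls N g) = 0 := by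
  rw [X.smul_mk, comb_mk_eq_mk_iff]
  have h1 : comb_cls N (h * g) =
      (((h 0 0 : ℤ) : ZMod N) * (comb_cls N g).1 + ((h 0 1 : ℤ) : ZMod N) * (comb_cls N g).2,
       ((h 1 0 : ℤ) : ZMod N) * (comb_cls N g).1 + ((h 1 1 : ℤ) : ZMod N) * (comb_cls N g).2) := by
    simp [comb_cls, Matrix.SpecialLinearGroup.coe_mul, Matrix.mul_apply, Fin.sum_univ_two]
  rw [h1, comb_cross]

/-- The primitive vector attached to a coset (via the chosen representative). -/
noncomputable def comb_vec {N : ℕ} (x : X N) : ZMod N × ZMod N := comb_cls N (X.rep x)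

lemma comb_vec_isCoprime {N : ℕ} (x : X N) : IsCoprime (comb_vec x).1 (comb_vec x).2 :=
  comb_cls_isCoprime N _

/-- If a ring element kills both entries of a primitive vector it is zero. -/
lemma comb_eq_zero_of_mul {R : Type*} [CommRing R] {a b e : R} (hab : IsCoprime a b)
    (h1 : e * a = 0) (h2 : e * b = 0) : e = 0 := by
  obtain ⟨s, t, hst⟩ := hab
  calc e = e * (s * a + t * b) := by rw [hst, mul_one]
    _ = s * (e * a) + t * (e * b) := by ring
    _ = 0 := by rw [h1, h2]; ring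

/-- Two primitive vectors with vanishing cross product differ by a unit. -/
lemma comb_exists_unit {R : Type*} [CommRing R] {a b a' b' : R} (hab : IsCoprime a b)
    (hab' : IsCoprime a' b') (h : a * b' - b * a' = 0) :
    ∃ u : Rˣ, a' = u * a ∧ b' = u * b := by
  obtain ⟨s, t, hst⟩ := id hab
  obtain ⟨s', t', hst'⟩ := id hab'
  have h' : a * b' = b * a' := sub_eq_zero.mp h
  have e1 : (s * a' + t * b') * a = a' := by
    calc (s * a' + t * b') * a = s * a * a' + t * (a * b') := by ring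
      _ = s * a * a' + t * (b * a') := by rw [h']
      _ = (s * a + t * b) * a' := by ring
      _ = a' := by rw [hst, one_mul]
  have e2 : (s * a' + t * b') * b = b' := by
    calc (s * a' + t * b') * b = s * (b * a') + t * b * b' := by ring
      _ = s * (a * b') + t * b * b' := by rw [h']
      _ = (s * a + t * b) * b' := by ring
      _ = b' := by rw [hst, one_mul]
  have e1' : (s' * a + t' * b) * a' = a := by
    calc (s' * a + t' * b) * a' = s' * a' * a + t' * (b * a') := by ring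
      _ = s' * a' * a + t' * (a * b') := by rw [h']
      _ = (s' * a' + t' * b') * a := by ring
      _ = a := by rw [hst', one_mul]
  have e2' : (s' * a + t' * b) * b' = b := by
    calc (s' * a + t' * b) * b' = s' * (a * b') + t' * b' * b := by ring
      _ = s' * (b * a') + t' * b' * b := by rw [h']
      _ = (s' * a' + t' * b') * b := by ring
      _ = b := by rw [hst', one_mul]
  have hu : (s * a' + t * b') * (s' * a + t' * b) = 1 := by
    have h0 : (s * a' + t * b') * (s' * a + t' * b) - 1 = 0 := by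
      apply comb_eq_zero_of_mul hab'
      · calc ((s * a' + t * b') * (s' * a + t' * b) - 1) * a'
            = (s * a' + t * b') * ((s' * a + t' * b) * a') - a' := by ring
          _ = 0 := by rw [e1', e1, sub_self]
      · calc ((s * a' + t * b') * (s' * a + t' * b) - 1) * b'
            = (s * a' + t * b') * ((s' * a + t' * b) * b') - b' := by ring
          _ = 0 := by rw [e2', e2, sub_self]
    exact sub_eq_zero.mp h0
  refine ⟨⟨s * a' + t * b', s' * a + t' * b, hu, by rw [mul_comm]; exact hu⟩, e1.symm, e2.symm⟩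

/-- Injectivity of `(x, u) ↦ u • vec x`. -/
lemma comb_param_inj {N : ℕ} (x x' : X N) (u u' : (ZMod N)ˣ)
    (h1 : (u : ZMod N) * (comb_vec x).1 = u' * (comb_vec x').1)
    (h2 : (u : ZMod N) * (comb_vec x).2 = u' * (comb_vec x').2) : x = x' ∧ u = u' := by
  have hx : x = x' := by
    rw [← X.mk_rep x, ← X.mk_rep x', comb_mk_eq_mk_iff]
    change (comb_vec x).1 * (comb_vec x').2 - (comb_vec x).2 * (comb_vec x').1 = 0
    have h3 : ((u * u' : (ZMod N)ˣ) : ZMod N) *
        ((comb_vec x).1 * (comb_vec x').2 - (comb_vec x).2 * (comb_vec x').1) = 0 := by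
      calc ((u * u' : (ZMod N)ˣ) : ZMod N) *
          ((comb_vec x).1 * (comb_vec x').2 - (comb_vec x).2 * (comb_vec x').1)
          = ((u : ZMod N) * (comb_vec x).1) * (u' * (comb_vec x').2) -
            ((u : ZMod N) * (comb_vec x).2) * (u' * (comb_vec x').1) := by
            rw [Units.val_mul]; ring
        _ = 0 := by rw [h1, h2]; ring
    exact (Units.mul_right_eq_zero _).mp h3
  subst hx
  refine ⟨rfl, ?_⟩
  have h0 : (u : ZMod N) - u' = 0 := by
    apply comb_eq_zero_of_mul (comb_vec_isCoprime x)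
    · rw [sub_mul, h1, sub_self]
    · rw [sub_mul, h2, sub_self]
  exact Units.ext (sub_eq_zero.mp h0)

/-- Surjectivity of `(x, u) ↦ u • vec x` onto the primitive vectors. -/
lemma comb_param_surj {N : ℕ} [NeZero N] (w : ZMod N × ZMod N) (hw : IsCoprime w.1 w.2) :
    ∃ (x : X N) (u : (ZMod N)ˣ), w.1 = u * (comb_vec x).1 ∧ w.2 = u * (comb_vec x).2 := by
  obtain ⟨g, rfl⟩ := comb_lift N w hw
  refine ⟨X.mk g, ?_⟩
  have h : (X.mk (X.rep (X.mk g : X N)) : X N) = X.mk g := X.mk_rep _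
  rw [comb_mk_eq_mk_iff] at h
  exact comb_exists_unit (comb_vec_isCoprime _) hw h

lemma comb_cross_smul (N : ℕ) (h : SL(2, ℤ)) (u : ZMod N) (v : ZMod N × ZMod N) :
    comb_cross N h (u * v.1, u * v.2) = u ^ 2 * comb_cross N h v := by
  simp only [comb_cross]
  ring

lemma comb_cross_param_iff {N : ℕ} (h : SL(2, ℤ)) (x : X N) (u : (ZMod N)ˣ) :
    comb_cross N h ((u : ZMod N) * (comb_vec x).1, (u : ZMod N) * (comb_vec x).2) = 0 ↔
      h • x = x := by
  rw [comb_cross_smul, ← Units.val_pow_eq_pow_val, Units.mul_right_eq_zero]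
  conv_rhs => rw [← X.mk_rep x, comb_fix_iff]
  rfl

lemma comb_isCoprime_unit_mul {R : Type*} [CommRing R] (u : Rˣ) {a b : R} (hab : IsCoprime a b) :
    IsCoprime ((u : R) * a) ((u : R) * b) := by
  obtain ⟨s, t, hst⟩ := hab
  refine ⟨s * ((u⁻¹ : Rˣ) : R), t * ((u⁻¹ : Rˣ) : R), ?_⟩
  calc s * ((u⁻¹ : Rˣ) : R) * (u * a) + t * ((u⁻¹ : Rˣ) : R) * (u * b)
      = (((u⁻¹ : Rˣ) : R) * u) * (s * a + t * b) := by ring
    _ = 1 := by rw [hst, Units.inv_mul, mul_one]

/-- The main count: primitive vectors "fixed up to a unit" by `h` versus fixed cosets. -/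
theorem comb_card_fix (N : ℕ) [NeZero N] (h : SL(2, ℤ)) :
    Nat.card {v : ZMod N × ZMod N // IsCoprime v.1 v.2 ∧ comb_cross N h v = 0} =
      Nat.totient N * fixCount N h := by
  classical
  let Φ : {x : X N // h • x = x} × (ZMod N)ˣ →
      {v : ZMod N × ZMod N // IsCoprime v.1 v.2 ∧ comb_cross N h v = 0} := fun p =>
    ⟨((p.2 : ZMod N) * (comb_vec p.1.1).1, (p.2 : ZMod N) * (comb_vec p.1.1).2),
      comb_isCoprime_unit_mul p.2 (comb_vec_isCoprime p.1.1),
      (comb_cross_param_iff h p.1.1 p.2).mpr p.1.2⟩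
  have hΦ : Function.Bijective Φ := by
    constructor
    · rintro ⟨⟨x, hx⟩, u⟩ ⟨⟨x', hx'⟩, u'⟩ hp
      have hp' := congrArg Subtype.val hp
      simp only [Φ, Prod.mk.injEq] at hp'
      obtain ⟨rfl, rfl⟩ := comb_param_inj x x' u u' hp'.1 hp'.2
      rfl
    · rintro ⟨w, hw, hw0⟩
      obtain ⟨x, u, h1, h2⟩ := comb_param_surj w hw
      have hwe : w = ((u : ZMod N) * (comb_vec x).1, (u : ZMod N) * (comb_vec x).2) :=
        Prod.ext h1 h2
      have hx : h • x = x := by
        rw [hwe] at hw0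
        exact (comb_cross_param_iff h x u).mp hw0
      refine ⟨(⟨x, hx⟩, u), ?_⟩
      apply Subtype.ext
      simp only [Φ]
      exact hwe.symm
  rw [← Nat.card_congr (Equiv.ofBijective Φ hΦ), Nat.card_prod, Nat.card_eq_fintype_card,
    Nat.card_eq_fintype_card, ZMod.card_units_eq_totient, mul_comm]
  rfl

/-- Counting primitive isotropic vectors of the form `v₁² + c v₁ v₂ + v₂²`. -/
lemma comb_card_quad (N : ℕ) [NeZero N] (c : ZMod N) :
    Nat.card {v : ZMod N × ZMod N // IsCoprime v.1 v.2 ∧ v.1 ^ 2 + c * v.1 * v.2 + v.2 ^ 2 = 0} =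
      Nat.totient N * Nat.card {t : ZMod N // t ^ 2 + c * t + 1 = 0} := by
  classical
  let Ψ : (ZMod N)ˣ × {t : ZMod N // t ^ 2 + c * t + 1 = 0} →
      {v : ZMod N × ZMod N // IsCoprime v.1 v.2 ∧ v.1 ^ 2 + c * v.1 * v.2 + v.2 ^ 2 = 0} := fun p =>
    ⟨((p.1 : ZMod N), (p.1 : ZMod N) * p.2.1),
      ⟨((p.1⁻¹ : (ZMod N)ˣ) : ZMod N), 0, by simp⟩, by
        have h := p.2.2
        calc ((p.1 : ZMod N)) ^ 2 + c * (p.1 : ZMod N) * ((p.1 : ZMod N) * p.2.1) +
              ((p.1 : ZMod N) * p.2.1) ^ 2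
            = (p.1 : ZMod N) ^ 2 * (p.2.1 ^ 2 + c * p.2.1 + 1) := by ring
          _ = 0 := by rw [h, mul_zero]⟩
  have hΨ : Function.Bijective Ψ := by
    constructor
    · rintro ⟨u, ⟨t, ht⟩⟩ ⟨u', ⟨t', ht'⟩⟩ hp
      have hp' := congrArg Subtype.val hp
      simp only [Ψ, Prod.mk.injEq] at hp'
      obtain ⟨h1, h2⟩ := hp'
      have hu : u = u' := Units.ext h1
      subst hu
      have htt : t = t' := (Units.mul_right_inj u).mp h2
      subst htt
      rfl
    · rintro ⟨⟨v1, v2⟩, ⟨a, b, hab⟩, hq⟩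
      simp only at hab hq
      have hinv : v1 * (a ^ 2 * v1 + 2 * a * b * v2 - b ^ 2 * (v1 + c * v2)) = 1 := by
        have h2 : v2 ^ 2 = -(v1 ^ 2 + c * v1 * v2) := by
          rw [eq_neg_iff_add_eq_zero, add_comm]; exact hq
        calc v1 * (a ^ 2 * v1 + 2 * a * b * v2 - b ^ 2 * (v1 + c * v2))
            = a ^ 2 * v1 ^ 2 + 2 * a * b * v1 * v2 + b ^ 2 * (-(v1 ^ 2 + c * v1 * v2)) := by ring
          _ = a ^ 2 * v1 ^ 2 + 2 * a * b * v1 * v2 + b ^ 2 * v2 ^ 2 := by rw [← h2]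
          _ = (a * v1 + b * v2) ^ 2 := by ring
          _ = 1 := by rw [hab, one_pow]
      let u : (ZMod N)ˣ := ⟨v1, a ^ 2 * v1 + 2 * a * b * v2 - b ^ 2 * (v1 + c * v2), hinv,
        by rw [mul_comm]; exact hinv⟩
      have hu : (u : ZMod N) = v1 := rfl
      have hui : ((u⁻¹ : (ZMod N)ˣ) : ZMod N) * v1 = 1 := by rw [← hu, Units.inv_mul]
      have ht : (((u⁻¹ : (ZMod N)ˣ) : ZMod N) * v2) ^ 2 +
          c * (((u⁻¹ : (ZMod N)ˣ) : ZMod N) * v2) + 1 = 0 := by
        calc (((u⁻¹ : (ZMod N)ˣ) : ZMod N) * v2) ^ 2 +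
            c * (((u⁻¹ : (ZMod N)ˣ) : ZMod N) * v2) + 1
            = ((u⁻¹ : (ZMod N)ˣ) : ZMod N) ^ 2 * v2 ^ 2 +
              c * (((u⁻¹ : (ZMod N)ˣ) : ZMod N) * v2) *
                (((u⁻¹ : (ZMod N)ˣ) : ZMod N) * v1) +
              (((u⁻¹ : (ZMod N)ˣ) : ZMod N) * v1) ^ 2 := by rw [hui]; ring
          _ = ((u⁻¹ : (ZMod N)ˣ) : ZMod N) ^ 2 * (v1 ^ 2 + c * v1 * v2 + v2 ^ 2) := by ring
          _ = 0 := by rw [hq, mul_zero]
      refine ⟨(u, ⟨((u⁻¹ : (ZMod N)ˣ) : ZMod N) * v2, ht⟩), ?_⟩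
      apply Subtype.ext
      simp only [Ψ]
      refine Prod.ext rfl ?_
      simp
  rw [← Nat.card_congr (Equiv.ofBijective Ψ hΨ), Nat.card_prod, Nat.card_eq_fintype_card,
    ZMod.card_units_eq_totient]

lemma comb_cross_one (N : ℕ) (v : ZMod N × ZMod N) : comb_cross N 1 v = 0 := by
  simp [comb_cross]
  ring

lemma comb_cross_S (N : ℕ) (v : ZMod N × ZMod N) :
    comb_cross N ModularGroup.S v = -(v.1 ^ 2 + 0 * v.1 * v.2 + v.2 ^ 2) := by
  simp [comb_cross, ModularGroup.coe_S]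
  ring

lemma comb_cross_ST (N : ℕ) (v : ZMod N × ZMod N) :
    comb_cross N (ModularGroup.S * ModularGroup.T) v = -(v.1 ^ 2 + 1 * v.1 * v.2 + v.2 ^ 2) := by
  simp [comb_cross, ModularGroup.coe_S, ModularGroup.coe_T, Matrix.SpecialLinearGroup.coe_mul]
  ring

lemma comb_cross_T_pow (N : ℕ) (m : ℕ) (v : ZMod N × ZMod N) :
    comb_cross N (ModularGroup.T ^ m) v = (m : ZMod N) * v.2 ^ 2 := by
  have h := ModularGroup.coe_T_zpow (m : ℤ)
  rw [zpow_natCast] at h
  simp [comb_cross, h]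
  ring

lemma comb_totient_cancel (N : ℕ) [NeZero N] {a b : ℕ} (h : Nat.totient N * a = Nat.totient N * b) :
    a = b :=
  Nat.eq_of_mul_eq_mul_left (Nat.totient_pos.mpr (NeZero.pos N)) h

/-- The index of `Γ₀(N)` is the Dedekind psi function. -/
theorem card_X (N : ℕ) [NeZero N] : Fintype.card (X N) = ModularCurve.dedekindPsi N := by
  classical
  have h1 := comb_card_fix N (1 : SL(2, ℤ))
  have h2 : Nat.card {v : ZMod N × ZMod N // IsCoprime v.1 v.2 ∧ comb_cross N 1 v = 0} =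
      Nat.card {v : ZMod N × ZMod N // IsCoprime v.1 v.2} :=
    Nat.card_congr (Equiv.subtypeEquivRight (fun v => by rw [comb_cross_one]; simp))
  have h3 : fixCount N (1 : SL(2, ℤ)) = Fintype.card (X N) := by
    rw [fixCount]
    exact Fintype.card_congr (Equiv.subtypeUnivEquiv (fun x => one_smul _ x))
  rw [h2, card_prim, h3] at h1
  exact (comb_totient_cancel N h1).symm

/-- Fixed points of `S` on `X N` correspond to solutions of `x² + 1 = 0` in `ZMod N`. -/
theorem fixCount_S (N : ℕ) [NeZero N] : fixCount N ModularGroup.S = ModularCurve.nuTwo N := by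
  have h1 := comb_card_fix N ModularGroup.S
  have h2 : Nat.card {v : ZMod N × ZMod N //
        IsCoprime v.1 v.2 ∧ comb_cross N ModularGroup.S v = 0} =
      Nat.card {v : ZMod N × ZMod N //
        IsCoprime v.1 v.2 ∧ v.1 ^ 2 + 0 * v.1 * v.2 + v.2 ^ 2 = 0} :=
    Nat.card_congr (Equiv.subtypeEquivRight (fun v => by rw [comb_cross_S, neg_eq_zero]))
  have h3 : Nat.card {t : ZMod N // t ^ 2 + 0 * t + 1 = 0} = ModularCurve.nuTwo N := by
    rw [ModularCurve.nuTwo]
    exact Nat.card_congr (Equiv.subtypeEquivRight (fun t => by rw [zero_mul, add_zero]))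
  rw [h2, comb_card_quad, h3] at h1
  exact (comb_totient_cancel N h1).symm

/-- Fixed points of `S * T` on `X N` correspond to solutions of `x² + x + 1 = 0` in `ZMod N`. -/
theorem fixCount_ST (N : ℕ) [NeZero N] :
    fixCount N (ModularGroup.S * ModularGroup.T) = ModularCurve.nuThree N := by
  have h1 := comb_card_fix N (ModularGroup.S * ModularGroup.T)
  have h2 : Nat.card {v : ZMod N × ZMod N //
        IsCoprime v.1 v.2 ∧ comb_cross N (ModularGroup.S * ModularGroup.T) v = 0} =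
      Nat.card {v : ZMod N × ZMod N //
        IsCoprime v.1 v.2 ∧ v.1 ^ 2 + 1 * v.1 * v.2 + v.2 ^ 2 = 0} :=
    Nat.card_congr (Equiv.subtypeEquivRight (fun v => by rw [comb_cross_ST, neg_eq_zero]))
  have h3 : Nat.card {t : ZMod N // t ^ 2 + 1 * t + 1 = 0} = ModularCurve.nuThree N := by
    rw [ModularCurve.nuThree]
    exact Nat.card_congr (Equiv.subtypeEquivRight (fun t => by rw [one_mul]))
  rw [h2, comb_card_quad, h3] at h1
  exact (comb_totient_cancel N h1).symm

/-- Burnside count for the powers of `T` (so that the number of `T`-orbits, i.e. of cusps, is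
`cuspCount N`). -/
theorem sum_fixCount_T_pow (N : ℕ) [NeZero N] :
    ∑ m ∈ Finset.range N, fixCount N (ModularGroup.T ^ m) = N * ModularCurve.cuspCount N := by
  have h1 : ∀ m : ℕ, Nat.card {v : ZMod N × ZMod N //
        IsCoprime v.1 v.2 ∧ (m : ZMod N) * v.2 ^ 2 = 0} =
      Nat.totient N * fixCount N (ModularGroup.T ^ m) := by
    intro m
    rw [← comb_card_fix]
    exact Nat.card_congr (Equiv.subtypeEquivRight (fun v => by rw [comb_cross_T_pow]))
  have h2 := sum_card_prim_fix N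
  rw [Finset.sum_congr rfl (fun m _ => h1 m), ← Finset.mul_sum] at h2
  exact comb_totient_cancel N h2

end Fermat.Agent.S20
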