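import Fermat.Agent.S20.Defs
import Fermat.Agent.S20.Infty.Proj

/-!
# S20 / Infty: linear algebra of the `T`-action on `X N` and the normal form at `i∞`

`P := Pmat T` is a permutation matrix with `P ^ N = 1`. `piR N r` is the projector onto its
`exp(2πi r/N)`-eigenspace, `Emat N z = ∑_r exp(2πi (r/N) z) • piR N r`.
-/

set_option autoImplicit false

open UpperHalfPlane hiding I
open ModularForm CongruenceSubgroup Matrix.SpecialLinearGroup Real Complex
open scoped MatrixGroups ModularForm Manifold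

namespace Fermat.Agent.S20

noncomputable section

/-- The discrete Fourier projector onto the `exp(2πi r/N)`-eigenspace of `Pmat T`. -/
def piR (N : ℕ) [NeZero N] (r : ℕ) : Matrix (X N) (X N) ℂ :=
  (N : ℂ)⁻¹ • ∑ m ∈ Finset.range N,
    Complex.exp (-(2 * π * I * r * m / N)) • (Pmat (ModularGroup.T ^ m) : Matrix (X N) (X N) ℂ)

/-- `Emat N z = ∑_{r < N} exp(2πi (r/N) z) • piR N r`. -/
def Emat (N : ℕ) [NeZero N] (z : ℂ) : Matrix (X N) (X N) ℂ :=
  ∑ r ∈ Finset.range N, Complex.exp (2 * π * I * r / N * z) • piR N r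

/-- `ω = exp(-2πi/N)`. -/
def inftyOmega (N : ℕ) : ℂ := Complex.exp (-(2 * π * I / N))

lemma inftyOmega_primitive (N : ℕ) [NeZero N] : IsPrimitiveRoot (inftyOmega N) N := by
  have h := (Complex.isPrimitiveRoot_exp N (NeZero.ne N)).inv
  rwa [← Complex.exp_neg] at h

lemma infty_T_pow_smul (N : ℕ) (x : X N) : (ModularGroup.T ^ N) • x = x := by
  obtain ⟨g, rfl⟩ := X.mk_surjective x
  rw [X.smul_mk, X.mk_eq_mk]
  have h1 : (ModularGroup.T ^ N : SL(2, ℤ)) ∈ CongruenceSubgroup.Gamma N := by
    have := ModularGroup_T_pow_mem_Gamma (N : ℤ) (N : ℤ) dvd_rfl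
    simpa using this
  have h2 : g⁻¹ * (ModularGroup.T ^ N)⁻¹ * g⁻¹⁻¹ ∈ CongruenceSubgroup.Gamma N :=
    (Gamma_normal N).conj_mem _ (inv_mem h1) g⁻¹
  have h3 : (ModularGroup.T ^ N * g)⁻¹ * g = g⁻¹ * (ModularGroup.T ^ N)⁻¹ * g⁻¹⁻¹ := by group
  rw [h3]
  rw [Gamma_mem] at h2
  rw [Gamma0_mem]
  exact h2.2.2.1

lemma Pmat_T_pow (N : ℕ) [NeZero N] :
    (Pmat ModularGroup.T : Matrix (X N) (X N) ℂ) ^ N = 1 := by
  rw [← Pmat_pow]
  ext x y
  rw [Pmat_apply, Matrix.one_apply]
  have h : (ModularGroup.T ^ N)⁻¹ • x = x := by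
    conv_lhs => rw [← infty_T_pow_smul N x]
    exact inv_smul_smul _ _
  rw [h]
  simp [eq_comm]

lemma Pmat_T_transpose_mul (N : ℕ) [NeZero N] :
    (Pmat ModularGroup.T : Matrix (X N) (X N) ℂ).transpose * Pmat ModularGroup.T = 1 := by
  rw [Pmat_transpose, ← Pmat_mul, inv_mul_cancel, Pmat_one]

lemma piR_eq (N : ℕ) [NeZero N] (r : ℕ) :
    piR N r = inftyProj N (inftyOmega N) (Pmat ModularGroup.T) r := by
  unfold piR inftyProj
  congr 1
  refine Finset.sum_congr rfl fun m _ => ?_
  rw [Pmat_pow]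
  congr 1
  rw [inftyOmega, ← Complex.exp_nat_mul]
  congr 1
  push_cast
  ring

lemma piR_mul (N : ℕ) [NeZero N] {r s : ℕ} (hr : r < N) (hs : s < N) :
    piR N r * piR N s = if r = s then piR N s else 0 := by
  have hω := inftyOmega_primitive N
  rw [piR_eq, piR_eq, inftyProj_mul (NeZero.ne N) hω.pow_eq_one (Pmat_T_pow N)]
  by_cases h : r = s
  · rw [if_pos h, if_pos (by rw [h])]
  · rw [if_neg h, if_neg (fun h2 => h (hω.pow_inj hr hs h2))]

lemma piR_sum (N : ℕ) [NeZero N] : ∑ r ∈ Finset.range N, piR N r = 1 := by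
  simp only [piR_eq]
  exact inftyProj_sum (NeZero.ne N) (inftyOmega_primitive N) _

lemma piR_transpose_mul (N : ℕ) [NeZero N] {r s : ℕ} (hr : r < N) (hs : s < N) :
    (piR N r).transpose * piR N s = if (r = 0 ∧ s = 0) ∨ r + s = N then piR N s else 0 := by
  have hω := inftyOmega_primitive N
  rw [piR_eq, piR_eq, inftyProj_transpose_mul (NeZero.ne N) hω.pow_eq_one (Pmat_T_pow N)
    (Pmat_T_transpose_mul N)]
  have key : (inftyOmega N ^ r * inftyOmega N ^ s = 1) ↔ ((r = 0 ∧ s = 0) ∨ r + s = N) := by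
    rw [← pow_add, hω.pow_eq_one_iff_dvd]
    constructor
    · rintro ⟨c, hc⟩
      have hN : 0 < N := Nat.pos_of_ne_zero (NeZero.ne N)
      rcases Nat.eq_zero_or_pos c with h0 | h0
      · left; subst h0; omega
      · right
        have hc2 : c < 2 := by
          by_contra h2
          have : N * 2 ≤ N * c := Nat.mul_le_mul_left N (by omega)
          omega
        have hc1 : c = 1 := by omega
        subst hc1; omega
    · rintro (⟨rfl, rfl⟩ | h)
      · exact dvd_zero _
      · rw [h]
  by_cases h : (r = 0 ∧ s = 0) ∨ r + s = N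
  · rw [if_pos h, if_pos (key.mpr h)]
  · rw [if_neg h, if_neg (fun h2 => h (key.mp h2))]

/-- (L1) -/
theorem Emat_mul_neg (N : ℕ) [NeZero N] (z : ℂ) : Emat N z * Emat N (-z) = 1 := by
  unfold Emat
  rw [Finset.sum_mul_sum, ← piR_sum N]
  refine Finset.sum_congr rfl fun r hr => ?_
  have hr' := Finset.mem_range.mp hr
  rw [Finset.sum_eq_single r]
  · rw [Matrix.smul_mul, Matrix.mul_smul, smul_smul, piR_mul N hr' hr', if_pos rfl,
      ← Complex.exp_add]
    have : 2 * π * I * r / N * z + 2 * π * I * r / N * -z = 0 := by ring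
    rw [this, Complex.exp_zero, one_smul]
  · intro s hs hsr
    rw [Matrix.smul_mul, Matrix.mul_smul, piR_mul N hr' (Finset.mem_range.mp hs),
      if_neg (fun h => hsr h.symm), smul_zero, smul_zero]
  · intro h; exact absurd hr h

/-- (L2) -/
theorem Emat_transpose_mul (N : ℕ) [NeZero N] (z : ℂ) :
    (Emat N z).transpose * Emat N z =
      piR N 0 + Complex.exp (2 * π * I * z) • (1 - piR N 0) := by
  have hN : 0 < N := Nat.pos_of_ne_zero (NeZero.ne N)
  have h0 : (0 : ℕ) ∈ Finset.range N := Finset.mem_range.mpr hN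
  unfold Emat
  rw [Matrix.transpose_sum, Finset.sum_mul_sum, Finset.sum_comm]
  have key : ∀ s ∈ Finset.range N,
      ∑ r ∈ Finset.range N, (Complex.exp (2 * π * I * r / N * z) • piR N r).transpose *
        (Complex.exp (2 * π * I * s / N * z) • piR N s) =
      Complex.exp (2 * π * I * z) • piR N s +
        (if s = 0 then (1 - Complex.exp (2 * π * I * z)) • piR N 0 else 0) := by
    intro s hs
    have hs' := Finset.mem_range.mp hs
    by_cases hs0 : s = 0
    · subst hs0
      rw [if_pos rfl, Finset.sum_eq_single 0]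
      · rw [Matrix.transpose_smul, Matrix.smul_mul, Matrix.mul_smul, smul_smul,
          piR_transpose_mul N hN hN, if_pos (Or.inl ⟨rfl, rfl⟩), ← add_smul]
        congr 1
        simp
      · intro r hr hr0
        rw [Matrix.transpose_smul, Matrix.smul_mul, Matrix.mul_smul,
          piR_transpose_mul N (Finset.mem_range.mp hr) hN, if_neg, smul_zero, smul_zero]
        have := Finset.mem_range.mp hr
        omega
      · intro h; exact absurd h0 h
    · rw [if_neg hs0, add_zero, Finset.sum_eq_single (N - s)]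
      · have hlt : N - s < N := by omega
        rw [Matrix.transpose_smul, Matrix.smul_mul, Matrix.mul_smul, smul_smul,
          piR_transpose_mul N hlt hs', if_pos (Or.inr (by omega)), ← Complex.exp_add]
        congr 2
        have hNC : (N : ℂ) ≠ 0 := Nat.cast_ne_zero.mpr (NeZero.ne N)
        rw [Nat.cast_sub hs'.le]
        field_simp
        ring
      · intro r hr hrs
        rw [Matrix.transpose_smul, Matrix.smul_mul, Matrix.mul_smul,
          piR_transpose_mul N (Finset.mem_range.mp hr) hs', if_neg, smul_zero, smul_zero]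
        have := Finset.mem_range.mp hr
        omega
      · intro h; exact absurd (Finset.mem_range.mpr (by omega)) h
  rw [Finset.sum_congr rfl key, Finset.sum_add_distrib, ← Finset.smul_sum, piR_sum,
    Finset.sum_ite_eq' (Finset.range N) 0, if_pos h0]
  rw [smul_sub, sub_smul, one_smul]
  abel

/-- (L3) -/
theorem Emat_bound (N : ℕ) [NeZero N] :
    ∃ C : ℝ, ∀ z : ℂ, 0 ≤ z.im → ∀ x y : X N,
      ‖Emat N z x y‖ ≤ C ∧ ‖Emat N (-z) x y‖ ≤ C * Real.exp (2 * π * (1 - 1 / (N : ℝ)) * z.im) := by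
  have hN : 0 < N := Nat.pos_of_ne_zero (NeZero.ne N)
  have hNR : (0 : ℝ) < N := Nat.cast_pos.mpr hN
  refine ⟨∑ r ∈ Finset.range N, ∑ x : X N, ∑ y : X N, ‖piR N r x y‖, fun z hz x y => ?_⟩
  have hle : ∀ r, ‖piR N r x y‖ ≤ ∑ x : X N, ∑ y : X N, ‖piR N r x y‖ := by
    intro r
    refine le_trans ?_ (Finset.single_le_sum (f := fun x => ∑ y : X N, ‖piR N r x y‖)
      (fun i _ => Finset.sum_nonneg fun j _ => norm_nonneg _) (Finset.mem_univ x))
    exact Finset.single_le_sum (f := fun y => ‖piR N r x y‖)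
      (fun i _ => norm_nonneg _) (Finset.mem_univ y)
  have hnorm : ∀ (r : ℕ) (w : ℂ), ‖Complex.exp (2 * π * I * r / N * w)‖ =
      Real.exp (-(2 * π * (r / N) * w.im)) := by
    intro r w
    rw [Complex.norm_exp]
    congr 1
    have : 2 * (π : ℂ) * I * r / N * w = ((2 * π * (r / N) : ℝ) : ℂ) * (I * w) := by
      push_cast; ring
    rw [this, Complex.re_ofReal_mul, Complex.I_mul_re]
    ring
  have hentry : ∀ w : ℂ, Emat N w x y =
      ∑ r ∈ Finset.range N, Complex.exp (2 * π * I * r / N * w) * piR N r x y := by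
    intro w
    unfold Emat
    rw [Matrix.sum_apply]
    rfl
  constructor
  · rw [hentry]
    refine (norm_sum_le _ _).trans (Finset.sum_le_sum fun r hr => ?_)
    rw [norm_mul, hnorm]
    have h1 : Real.exp (-(2 * π * (r / N) * z.im)) ≤ 1 := by
      rw [Real.exp_le_one_iff]
      have : 0 ≤ 2 * π * ((r : ℝ) / N) * z.im := by positivity
      linarith
    calc Real.exp (-(2 * π * (r / N) * z.im)) * ‖piR N r x y‖
        ≤ 1 * ‖piR N r x y‖ := mul_le_mul_of_nonneg_right h1 (norm_nonneg _)
      _ = ‖piR N r x y‖ := one_mul _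
      _ ≤ _ := hle r
  · rw [hentry, Finset.sum_mul]
    refine (norm_sum_le _ _).trans (Finset.sum_le_sum fun r hr => ?_)
    rw [norm_mul, hnorm]
    have hr' := Finset.mem_range.mp hr
    have h1 : Real.exp (-(2 * π * (r / N) * (-z).im)) ≤
        Real.exp (2 * π * (1 - 1 / (N : ℝ)) * z.im) := by
      rw [Real.exp_le_exp, Complex.neg_im]
      have h2 : (r : ℝ) / N ≤ 1 - 1 / (N : ℝ) := by
        rw [div_le_iff₀ hNR, sub_mul, one_mul, div_mul_cancel₀ _ hNR.ne']
        have : (r : ℝ) + 1 ≤ N := by exact_mod_cast hr'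
        linarith
      have h3 : 2 * π * ((r : ℝ) / N) * z.im ≤ 2 * π * (1 - 1 / (N : ℝ)) * z.im := by
        apply mul_le_mul_of_nonneg_right _ hz
        apply mul_le_mul_of_nonneg_left h2
        positivity
      linarith
    calc Real.exp (-(2 * π * (r / N) * (-z).im)) * ‖piR N r x y‖
        ≤ Real.exp (2 * π * (1 - 1 / (N : ℝ)) * z.im) * ‖piR N r x y‖ :=
          mul_le_mul_of_nonneg_right h1 (norm_nonneg _)
      _ ≤ Real.exp (2 * π * (1 - 1 / (N : ℝ)) * z.im) * ∑ x : X N, ∑ y : X N, ‖piR N r x y‖ :=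
          mul_le_mul_of_nonneg_left (hle r) (Real.exp_pos _).le
      _ = _ := mul_comm _ _

/-- (L4) -/
theorem det_piR_zero (N : ℕ) [NeZero N] :
    ∃ d₀ : ℕ, d₀ ≤ Fintype.card (X N) ∧
      N * d₀ = ∑ m ∈ Finset.range N, fixCount N (ModularGroup.T ^ m) ∧
      ∀ q : ℂ, (piR N 0 + q • (1 - piR N 0)).det = q ^ (Fintype.card (X N) - d₀) := by
  have hN : 0 < N := Nat.pos_of_ne_zero (NeZero.ne N)
  have hidem : piR N 0 * piR N 0 = piR N 0 := by rw [piR_mul N hN hN, if_pos rfl]
  obtain ⟨d, hd, htr, hdet⟩ := infty_det_idem (piR N 0) hidem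
  refine ⟨d, hd, ?_, hdet⟩
  have h1 : Matrix.trace (piR N 0) =
      (N : ℂ)⁻¹ * ∑ m ∈ Finset.range N, (fixCount N (ModularGroup.T ^ m) : ℂ) := by
    unfold piR
    rw [Matrix.trace_smul, Matrix.trace_sum, smul_eq_mul]
    congr 1
    refine Finset.sum_congr rfl fun m _ => ?_
    rw [Matrix.trace_smul, trace_Pmat]
    simp
  have hNC : (N : ℂ) ≠ 0 := Nat.cast_ne_zero.mpr (NeZero.ne N)
  have h2 : ((N * d : ℕ) : ℂ) = ((∑ m ∈ Finset.range N, fixCount N (ModularGroup.T ^ m) : ℕ) : ℂ) := by
    push_cast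
    rw [htr, h1, ← mul_assoc, mul_inv_cancel₀ hNC, one_mul]
  exact_mod_cast h2

lemma infty_mdiff_exp (a : ℂ) : MDiff (fun τ : ℍ => Complex.exp (a * (τ : ℂ))) := by
  rw [UpperHalfPlane.mdifferentiable_iff]
  have h : DifferentiableOn ℂ (fun z : ℂ => Complex.exp (a * z)) {z | 0 < z.im} :=
    (Complex.differentiable_exp.comp
      ((differentiable_const a).mul differentiable_id)).differentiableOn
  refine h.congr fun z hz => ?_
  simp only [Function.comp_apply]
  rw [ofComplex_apply_of_im_pos hz]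

/-- A `1`-periodic holomorphic function `u` on `ℍ` with `exp(2πiτ) u(τ) → 0` at `i∞` converges
exponentially fast at `i∞`. -/
lemma infty_periodic_limit (u : ℍ → ℂ) (hol : MDiff u)
    (hper : Function.Periodic (u ∘ ofComplex) ((1 : ℝ) : ℂ))
    (hz : IsZeroAtImInfty (fun τ : ℍ => Complex.exp (2 * π * I * (τ : ℂ)) * u τ)) :
    ∃ c : ℂ, (fun τ : ℍ => u τ - c) =O[atImInfty] (fun τ => Real.exp (-2 * π * τ.im)) := by
  set g : ℍ → ℂ := fun τ => Complex.exp (2 * π * I * (τ : ℂ)) * u τ with hg
  have hgper : Function.Periodic (g ∘ ofComplex) ((1 : ℝ) : ℂ) := by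
    intro w
    by_cases hw : 0 < w.im
    · have hw1 : 0 < (w + ((1 : ℝ) : ℂ)).im := by simpa using hw
      have h1 := hper w
      simp only [Function.comp_apply] at h1 ⊢
      simp only [hg]
      rw [h1, ofComplex_apply_of_im_pos hw1, ofComplex_apply_of_im_pos hw]
      congr 1
      change Complex.exp (2 * π * I * (w + ((1 : ℝ) : ℂ))) = Complex.exp (2 * π * I * w)
      rw [mul_add, Complex.exp_add]
      simp [Complex.exp_two_pi_mul_I]
    · have hw' : w.im ≤ 0 := not_lt.mp hw
      have hw1 : (w + ((1 : ℝ) : ℂ)).im ≤ 0 := by simpa using hw'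
      simp only [Function.comp_apply]
      rw [ofComplex_apply_eq_of_im_nonpos hw1 hw']
  have hghol : MDiff g := (infty_mdiff_exp (2 * π * I)).mul hol
  have hgbdd : IsBoundedAtImInfty g := hz.boundedAtFilter
  have h1 := UpperHalfPlane.IsZeroAtImInfty.exp_decay_atImInfty hz one_pos hgper hghol hgbdd
  have hubdd : IsBoundedAtImInfty u := by
    have h2 : (fun τ : ℍ => Complex.exp (-(2 * π * I * (τ : ℂ)))) =O[atImInfty]
        (fun τ : ℍ => Real.exp (2 * π * τ.im)) := by
      apply Asymptotics.IsBigO.of_bound 1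
      filter_upwards with τ
      rw [Complex.norm_exp, Real.norm_eq_abs, Real.abs_exp, one_mul]
      apply le_of_eq
      congr 1
      simp
    have h3 := h2.mul h1
    have h4 : (fun τ : ℍ => Complex.exp (-(2 * π * I * (τ : ℂ))) * g τ) = u := by
      funext τ
      simp only [hg]
      rw [← mul_assoc, ← Complex.exp_add, neg_add_cancel, Complex.exp_zero, one_mul]
    have h5 : (fun τ : ℍ => Real.exp (2 * π * τ.im) * Real.exp (-2 * π * τ.im / 1)) =
        (1 : ℍ → ℝ) := by
      funext τ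
      rw [← Real.exp_add]
      simp
    rw [h4, h5] at h3
    exact h3
  refine ⟨valueAtInfty u, ?_⟩
  have h2 := UpperHalfPlane.exp_decay_sub_atImInfty one_pos hper hol hubdd
  simpa using h2

/-- (L5) If `v : ℍ → (X N → ℂ)` is holomorphic, bounded at `i∞` and satisfies
`v (T • τ) = Pmat T *ᵥ v τ`, then `Emat N (-τ) *ᵥ v τ` converges exponentially fast as
`Im τ → ∞`. -/
theorem exists_limit_mulVec (N : ℕ) [NeZero N] (v : ℍ → X N → ℂ)
    (hol : ∀ x, MDiff (fun τ => v τ x)) (bdd : ∀ x, IsBoundedAtImInfty (fun τ => v τ x))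
    (hT : ∀ τ x, v (ModularGroup.T • τ) x = v τ (ModularGroup.T⁻¹ • x)) :
    ∃ Ψ₀ : X N → ℂ, ∀ x,
      (fun τ : ℍ => (Emat N (-(τ : ℂ))).mulVec (v τ) x - Ψ₀ x) =O[atImInfty]
        (fun τ => Real.exp (-2 * π * τ.im)) := by
  have hN : 0 < N := Nat.pos_of_ne_zero (NeZero.ne N)
  have hNC : (N : ℂ) ≠ 0 := Nat.cast_ne_zero.mpr (NeZero.ne N)
  have hω := inftyOmega_primitive N
  have key : ∀ r ∈ Finset.range N, ∀ x, ∃ c : ℂ,
      (fun τ : ℍ => Complex.exp (2 * π * I * r / N * (-(τ : ℂ))) * (piR N r).mulVec (v τ) x - c)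
        =O[atImInfty] (fun τ => Real.exp (-2 * π * τ.im)) := by
    intro r hr x
    have hr' := Finset.mem_range.mp hr
    have hsum : ∀ τ : ℍ, (piR N r).mulVec (v τ) x = ∑ y, piR N r x y * v τ y := fun τ => rfl
    apply infty_periodic_limit
    · -- holomorphy
      have h1 : MDiff (fun τ : ℍ => Complex.exp (2 * π * I * r / N * (-(τ : ℂ)))) := by
        have e : (fun τ : ℍ => Complex.exp (2 * π * I * r / N * (-(τ : ℂ)))) =
            fun τ : ℍ => Complex.exp (-(2 * π * I * r / N) * (τ : ℂ)) := by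
          funext τ; congr 1; ring
        rw [e]
        exact infty_mdiff_exp _
      have h2 : MDiff (fun τ : ℍ => (piR N r).mulVec (v τ) x) := by
        rw [UpperHalfPlane.mdifferentiable_iff]
        have h3 : DifferentiableOn ℂ (fun z : ℂ => ∑ y, piR N r x y * v (ofComplex z) y)
            {z | 0 < z.im} := by
          refine DifferentiableOn.fun_sum fun y _ => ?_
          exact (UpperHalfPlane.mdifferentiable_iff.mp (hol y)).const_mul _
        exact h3
      exact h1.mul h2
    · -- periodicity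
      intro w
      by_cases hw : 0 < w.im
      · have hw1 : 0 < (w + ((1 : ℝ) : ℂ)).im := by simpa using hw
        have hTw : ofComplex (w + ((1 : ℝ) : ℂ)) = ModularGroup.T • ofComplex w := by
          rw [ofComplex_apply_of_im_pos hw1, ofComplex_apply_of_im_pos hw,
            UpperHalfPlane.modular_T_smul]
          ext
          rw [UpperHalfPlane.coe_vadd]
          change w + ((1 : ℝ) : ℂ) = ((1 : ℝ) : ℂ) + w
          ring
        simp only [Function.comp_apply]
        rw [hTw]
        generalize ofComplex w = τ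
        have hv : v (ModularGroup.T • τ) =
            (Pmat ModularGroup.T : Matrix (X N) (X N) ℂ).mulVec (v τ) := by
          funext y
          rw [hT, Pmat_mulVec]
        have hcoe : ((ModularGroup.T • τ : ℍ) : ℂ) = (τ : ℂ) + 1 := by
          rw [UpperHalfPlane.modular_T_smul, UpperHalfPlane.coe_vadd]
          push_cast; ring
        have hPA : piR N r * (Pmat ModularGroup.T : Matrix (X N) (X N) ℂ) =
            (inftyOmega N ^ r)⁻¹ • piR N r := by
          rw [piR_eq, ← (inftyProj_commute N _ _ r).eq,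
            inftyProj_mul_left (NeZero.ne N) hω.pow_eq_one (Pmat_T_pow N)]
        have hω0 : inftyOmega N ^ r ≠ 0 := pow_ne_zero _ (hω.ne_zero (NeZero.ne N))
        have hexp : Complex.exp (2 * π * I * r / N * (-((τ : ℂ) + 1))) =
            Complex.exp (2 * π * I * r / N * (-(τ : ℂ))) * inftyOmega N ^ r := by
          rw [inftyOmega, ← Complex.exp_nat_mul, ← Complex.exp_add]
          congr 1; ring
        rw [hv, Matrix.mulVec_mulVec, hPA, Matrix.smul_mulVec, Pi.smul_apply, smul_eq_mul, hcoe,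
          hexp, mul_assoc, ← mul_assoc (inftyOmega N ^ r), mul_inv_cancel₀ hω0, one_mul]
      · have hw' : w.im ≤ 0 := not_lt.mp hw
        have hw1 : (w + ((1 : ℝ) : ℂ)).im ≤ 0 := by simpa using hw'
        simp only [Function.comp_apply]
        rw [ofComplex_apply_eq_of_im_nonpos hw1 hw']
    · -- vanishing of `exp(2πiτ) u`
      have hpos : (0 : ℝ) < (N : ℝ) / ((N : ℝ) - r) := by
        have h1 : (r : ℝ) < N := by exact_mod_cast hr'
        have h2 : (0 : ℝ) < N := by exact_mod_cast hN
        exact div_pos h2 (by linarith)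
      have hE : IsZeroAtImInfty (fun τ : ℍ =>
          Function.Periodic.qParam ((N : ℝ) / ((N : ℝ) - r)) (τ : ℂ)) :=
        UpperHalfPlane.qParam_tendsto_atImInfty hpos
      have hB : IsBoundedAtImInfty (fun τ : ℍ => (piR N r).mulVec (v τ) x) := by
        have h1 : (∑ y : X N, fun τ : ℍ => piR N r x y * v τ y) =O[atImInfty] (1 : ℍ → ℝ) :=
          Asymptotics.IsBigO.sum fun y _ => (bdd y).const_mul_left (piR N r x y)
        have h2 : (∑ y : X N, fun τ : ℍ => piR N r x y * v τ y) =
            fun τ : ℍ => (piR N r).mulVec (v τ) x := by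
          funext τ
          rw [Finset.sum_apply, hsum]
        rw [h2] at h1
        exact h1
      have hEB := hE.mul_boundedAtFilter hB
      have hfun : (fun τ : ℍ => Complex.exp (2 * π * I * (τ : ℂ)) *
          (Complex.exp (2 * π * I * r / N * (-(τ : ℂ))) * (piR N r).mulVec (v τ) x)) =
          (fun τ : ℍ => Function.Periodic.qParam ((N : ℝ) / ((N : ℝ) - r)) (τ : ℂ)) *
            (fun τ : ℍ => (piR N r).mulVec (v τ) x) := by
        funext τ
        rw [Pi.mul_apply, ← mul_assoc, ← Complex.exp_add]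
        congr 1
        unfold Function.Periodic.qParam
        congr 1
        have h1 : (r : ℝ) < N := by exact_mod_cast hr'
        have h3 : ((N : ℂ) - r) ≠ 0 := by
          have : ((N : ℝ) - r : ℝ) ≠ 0 := by linarith
          exact_mod_cast this
        push_cast
        field_simp
        ring
      rw [hfun]
      exact hEB
  choose! c hc using key
  refine ⟨fun x => ∑ r ∈ Finset.range N, c r x, fun x => ?_⟩
  have hrew : (fun τ : ℍ => (Emat N (-(τ : ℂ))).mulVec (v τ) x - ∑ r ∈ Finset.range N, c r x) =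
      fun τ : ℍ => ∑ r ∈ Finset.range N,
        (Complex.exp (2 * π * I * r / N * (-(τ : ℂ))) * (piR N r).mulVec (v τ) x - c r x) := by
    funext τ
    rw [Finset.sum_sub_distrib]
    congr 1
    unfold Emat
    rw [Matrix.sum_mulVec, Finset.sum_apply]
    refine Finset.sum_congr rfl fun r _ => ?_
    rw [Matrix.smul_mulVec]
    rfl
  rw [hrew]
  refine (Asymptotics.IsBigO.sum fun r hr => hc r hr x).congr_left fun τ => ?_
  rw [Finset.sum_apply]

end

end Fermat.Agent.S20
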