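import Fermat.Agent.S20.Defs
import Fermat.Agent.S20.Infty
import Fermat.Agent.S20.Cusp.Basic
import Fermat.Agent.S20.Cusp.Sat

/-!
# S20 / Cusp: behaviour of the fundamental matrix at `i∞`

Write `F τ := Fmat k f τ`, `Ψ τ := Emat N (-τ) * F τ`. By (L5) `Ψ τ → Ψ₀` exponentially fast
(`cusp_exists_limit`), by the saturation argument `det Ψ₀ ≠ 0` (`cusp_det_limit_ne_zero`).
Comparing growth rates in `det F ^ 12 = c Δ ^ K` gives the sum of the weights, and
`Δ • F⁻¹ = Δ • Ψ⁻¹ * Emat N (-τ)` has rows which are translates of cusp forms.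
-/

set_option autoImplicit false

open UpperHalfPlane hiding I
open ModularForm CongruenceSubgroup Matrix.SpecialLinearGroup Real Complex
open scoped MatrixGroups ModularForm Manifold
open Filter Asymptotics Topology

namespace Fermat.Agent.S20

/-- `Ψ τ → Ψ₀` at `i∞`. -/
theorem cusp_tendsto_Psi (N : ℕ) [NeZero N] (k : X N → ℤ) (f : ∀ y, ModularForm (Γ N) (k y))
    (Ψ₀ : Matrix (X N) (X N) ℂ)
    (hΨ₀ : ∀ x y, (fun τ : ℍ => (Emat N (-(τ : ℂ)) * Fmat k f τ) x y - Ψ₀ x y) =O[atImInfty]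
        (fun τ => Real.exp (-2 * π * τ.im))) :
    Tendsto (fun τ : ℍ => Emat N (-(τ : ℂ)) * Fmat k f τ) atImInfty (𝓝 Ψ₀) := by
  have h : Tendsto (fun τ : ℍ => (fun x y => (Emat N (-(τ : ℂ)) * Fmat k f τ) x y : X N → X N → ℂ))
      atImInfty (𝓝 (fun x y => Ψ₀ x y)) := by
    rw [tendsto_pi_nhds]
    intro x
    rw [tendsto_pi_nhds]
    intro y
    have := (cusp_tendsto_of_isBigO (hΨ₀ x y)).add_const (Ψ₀ x y)
    simpa using this
  exact h

/-- (b) `det F ^ 2 = det Ψ ^ 2 * q ^ (μ - d₀)`. -/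
theorem cusp_det_sq (N : ℕ) [NeZero N] (k : X N → ℤ) (f : ∀ y, ModularForm (Γ N) (k y))
    (d₀ : ℕ) (hdetpi : ∀ q : ℂ, (piR N 0 + q • (1 - piR N 0)).det = q ^ (Fintype.card (X N) - d₀))
    (τ : ℍ) :
    (Fmat k f τ).det ^ 2 = (Emat N (-(τ : ℂ)) * Fmat k f τ).det ^ 2 *
      Complex.exp (2 * π * I * τ) ^ (Fintype.card (X N) - d₀) := by
  have hF : Fmat k f τ = Emat N τ * (Emat N (-(τ : ℂ)) * Fmat k f τ) := cusp_Fmat_eq N k f τ
  generalize Emat N (-(τ : ℂ)) * Fmat k f τ = Ψ at hF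
  have h1 : (Fmat k f τ).transpose * Fmat k f τ =
      Ψ.transpose * (piR N 0 + Complex.exp (2 * π * I * τ) • (1 - piR N 0)) * Ψ := by
    rw [← Emat_transpose_mul, hF, Matrix.transpose_mul]
    simp only [Matrix.mul_assoc]
  have h2 := congrArg Matrix.det h1
  rw [Matrix.det_mul, Matrix.det_transpose, Matrix.det_mul, Matrix.det_mul, Matrix.det_transpose,
    hdetpi] at h2
  rw [sq, h2]
  ring

/-- The sum of the weights of a free basis is `6 (μ - c)`, `μ = #X`, `c` = number of `T`-orbits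
on `X` (expressed through Burnside's count, multiplied by `N`). -/
theorem cusp_sum_weights (N : ℕ) [NeZero N] (k : X N → ℤ) (f : ∀ y, ModularForm (Γ N) (k y))
    (hgen : Gen k f) (hind : Indep k f) (c : ℂ) (hc : c ≠ 0)
    (hW : ∀ τ : ℍ, (Fmat k f τ).det ^ 12 = c * (discriminant τ) ^ (∑ y, k y)) :
    (N : ℤ) * ∑ y, k y =
      6 * ((N : ℤ) * Fintype.card (X N) -
        ∑ m ∈ Finset.range N, (fixCount N (ModularGroup.T ^ m) : ℤ)) := by
  obtain ⟨Ψ₀, hΨ₀⟩ := cusp_exists_limit N k f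
  have hdet0 := cusp_det_limit_ne_zero N k f hgen hind Ψ₀ hΨ₀
  obtain ⟨d₀, hd₀le, hd₀, hdetpi⟩ := det_piR_zero N
  have hΨt := cusp_tendsto_Psi N k f Ψ₀ hΨ₀
  have hD : Tendsto (fun τ : ℍ => (Emat N (-(τ : ℂ)) * Fmat k f τ).det) atImInfty (𝓝 Ψ₀.det) :=
    (continuous_id.matrix_det.tendsto Ψ₀).comp hΨt
  have key := cusp_det_sq N k f d₀ hdetpi
  generalize hK : ∑ y, k y = K at hW ⊢
  generalize hn : Fintype.card (X N) - d₀ = n at key
  have key2 : ∀ τ : ℍ, c * discriminant τ ^ K = (Emat N (-(τ : ℂ)) * Fmat k f τ).det ^ 12 *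
      Complex.exp (2 * π * I * τ) ^ (6 * n) := by
    intro τ
    rw [← hW τ]
    calc (Fmat k f τ).det ^ 12 = ((Fmat k f τ).det ^ 2) ^ 6 := by ring
      _ = _ := by rw [key τ]; ring
  -- product formula
  set P : ℍ → ℂ := fun τ => ∏' n : ℕ, (1 - eta_q n τ) ^ 24 with hPdef
  have hPt : Tendsto P atImInfty (𝓝 1) := tendsto_atImInfty_tprod_one_sub_eta_q_pow
  have hq : ∀ τ : ℍ, Complex.exp (2 * π * I * τ) ≠ 0 := fun τ => Complex.exp_ne_zero _
  have hΔ : ∀ τ : ℍ, discriminant τ = Complex.exp (2 * π * I * τ) * P τ := by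
    intro τ
    rw [discriminant_eq_q_prod]
    simp [Function.Periodic.qParam, P]
  have hP0 : ∀ τ, P τ ≠ 0 := by
    intro τ h0
    have := discriminant_ne_zero τ
    rw [hΔ, h0, mul_zero] at this
    exact this rfl
  set e : ℤ := K - 6 * n with he
  have h3 : ∀ τ : ℍ, Complex.exp (2 * π * I * τ) ^ e =
      (Emat N (-(τ : ℂ)) * Fmat k f τ).det ^ 12 / (c * P τ ^ K) := by
    intro τ
    have h := key2 τ
    rw [hΔ, mul_zpow] at h
    rw [he, zpow_sub₀ (hq τ), div_eq_div_iff (zpow_ne_zero _ (hq τ))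
      (mul_ne_zero hc (zpow_ne_zero _ (hP0 τ)))]
    have h6 : Complex.exp (2 * π * I * τ) ^ ((6 * n : ℕ) : ℤ) =
        Complex.exp (2 * π * I * τ) ^ (6 * n) := zpow_natCast _ _
    push_cast at h6
    rw [h6]
    linear_combination h
  have hlim : Tendsto (fun τ : ℍ => Complex.exp (2 * π * I * τ) ^ e) atImInfty
      (𝓝 (Ψ₀.det ^ 12 / (c * 1 ^ K))) := by
    have := (hD.pow 12).div (tendsto_const_nhds.mul (hPt.zpow₀ K (Or.inl one_ne_zero)))
      (by simp [hc] : c * (1 : ℂ) ^ K ≠ 0)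
    exact this.congr fun τ => (h3 τ).symm
  have hL : Ψ₀.det ^ 12 / (c * 1 ^ K) ≠ 0 := by
    simp [hc, hdet0]
  have hnorm : ∀ τ : ℍ, ‖Complex.exp (2 * π * I * τ) ^ e‖ =
      Real.exp ((e : ℝ) * (-2 * π * τ.im)) := by
    intro τ
    rw [← Complex.exp_int_mul, Complex.norm_exp]
    congr 1
    simp
  have hlim2 : Tendsto (fun τ : ℍ => (e : ℝ) * (-2 * π * τ.im)) atImInfty
      (𝓝 (Real.log ‖Ψ₀.det ^ 12 / (c * 1 ^ K)‖)) := by
    have := ((Real.continuousAt_log (norm_ne_zero_iff.mpr hL)).tendsto.comp hlim.norm)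
    refine this.congr fun τ => ?_
    simp only [Function.comp]
    rw [hnorm, Real.log_exp]
  have he0 : e = 0 := by
    by_contra hne
    have hne' : (e : ℝ) * (-2 * π) ≠ 0 := by
      have h1 : (e : ℝ) ≠ 0 := by exact_mod_cast hne
      have h2 : (-2 * π : ℝ) ≠ 0 := by
        have := Real.pi_pos
        linarith
      exact mul_ne_zero h1 h2
    have h4 := hlim2.const_mul (((e : ℝ) * (-2 * π))⁻¹)
    have h5 : Tendsto (fun τ : ℍ => τ.im) atImInfty
        (𝓝 (((e : ℝ) * (-2 * π))⁻¹ * Real.log ‖Ψ₀.det ^ 12 / (c * 1 ^ K)‖)) := by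
      refine h4.congr fun τ => ?_
      field_simp
    have h6 : Tendsto (fun τ : ℍ => τ.im) atImInfty atTop := tendsto_comap
    exact not_tendsto_nhds_of_tendsto_atTop h6 _ h5
  -- conclusion
  have hKn : K = 6 * n := by omega
  have hd₀' : (N : ℤ) * d₀ = ∑ m ∈ Finset.range N, (fixCount N (ModularGroup.T ^ m) : ℤ) := by
    exact_mod_cast hd₀
  rw [← hd₀', hKn, ← hn, Nat.cast_sub hd₀le]
  ring

/-- Transformation law of the inverse fundamental matrix. -/
theorem cusp_inv_smul (N : ℕ) [NeZero N] (k : X N → ℤ) (f : ∀ y, ModularForm (Γ N) (k y))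
    (hdet : ∀ τ : ℍ, (Fmat k f τ).det ≠ 0) (h : SL(2, ℤ)) (τ : ℍ) (y x : X N) :
    (Fmat k f (h • τ))⁻¹ y x = denom h τ ^ (-k y) * (Fmat k f τ)⁻¹ y (h⁻¹ • x) := by
  have hinv : (Fmat k f (h • τ))⁻¹ =
      Matrix.diagonal (fun j => denom h τ ^ (-k j)) * (Fmat k f τ)⁻¹ *
        (Pmat h⁻¹ : Matrix (X N) (X N) ℂ) := by
    apply Matrix.inv_eq_right_inv
    rw [Fmat_smul]
    have h1 : Matrix.diagonal (fun j => denom h τ ^ k j) *
        Matrix.diagonal (fun j => denom h τ ^ (-k j)) = (1 : Matrix (X N) (X N) ℂ) := by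
      rw [Matrix.diagonal_mul_diagonal]
      have : (fun j => denom h τ ^ k j * denom h τ ^ (-k j)) = fun _ => (1 : ℂ) := by
        funext j
        rw [← zpow_add₀ (denom_ne_zero h τ)]
        simp
      rw [this, Matrix.diagonal_one]
    have h2 : Fmat k f τ * (Fmat k f τ)⁻¹ = 1 :=
      Matrix.mul_nonsing_inv _ (isUnit_iff_ne_zero.mpr (hdet τ))
    have h3 : (Pmat h : Matrix (X N) (X N) ℂ) * Pmat h⁻¹ = 1 := by
      rw [← Pmat_mul, mul_inv_cancel, Pmat_one]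
    calc Pmat h * Fmat k f τ * Matrix.diagonal (fun j => denom h τ ^ k j) *
          (Matrix.diagonal (fun j => denom h τ ^ (-k j)) * (Fmat k f τ)⁻¹ * Pmat h⁻¹)
        = Pmat h * (Fmat k f τ * (Matrix.diagonal (fun j => denom h τ ^ k j) *
            Matrix.diagonal (fun j => denom h τ ^ (-k j))) * (Fmat k f τ)⁻¹) * Pmat h⁻¹ := by
          simp only [Matrix.mul_assoc]
      _ = 1 := by rw [h1, Matrix.mul_one, h2, Matrix.mul_one, h3]
  rw [hinv, Matrix.mul_assoc, Matrix.diagonal_mul, ← Pmat_transpose]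
  congr 1
  simp [Matrix.mul_apply, Pmat_apply]

/-- The functions `G_x = Δ · (F⁻¹) y x` are permuted by the slash action. -/
theorem cusp_dual_slash (N : ℕ) [NeZero N] (k : X N → ℤ) (f : ∀ y, ModularForm (Γ N) (k y))
    (hdet : ∀ τ : ℍ, (Fmat k f τ).det ≠ 0) (y x : X N) (h : SL(2, ℤ)) :
    (fun τ : ℍ => discriminant τ * (Fmat k f τ)⁻¹ y x) ∣[12 - k y] h =
      fun τ : ℍ => discriminant τ * (Fmat k f τ)⁻¹ y (h⁻¹ • x) := by
  funext τ
  rw [SL_slash_apply, cusp_inv_smul N k f hdet]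
  have hΔ : discriminant (h • τ) = denom h τ ^ (12 : ℤ) * discriminant τ := by
    have := congrFun (cusp_slash_levelOne CuspForm.discriminant h) τ
    rw [SL_slash_apply] at this
    have hd := denom_ne_zero h τ
    rw [CuspForm.coe_discriminant] at this
    rw [← this, zpow_neg]
    field_simp
  rw [hΔ]
  have hd := denom_ne_zero h τ
  rw [neg_sub, zpow_sub₀ hd, zpow_neg]
  field_simp

/-- The columns of `Δ · (F⁻¹)ᵀ` are (translates of) cusp forms of weight `12 - k y`. -/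
theorem dual_cusp (N : ℕ) [NeZero N] (k : X N → ℤ) (f : ∀ y, ModularForm (Γ N) (k y))
    (hgen : Gen k f) (hind : Indep k f) (c : ℂ) (hc : c ≠ 0)
    (hW : ∀ τ : ℍ, (Fmat k f τ).det ^ 12 = c * (discriminant τ) ^ (∑ y, k y)) (y : X N) :
    ∃ g : CuspForm (Γ N) (12 - k y), ∀ (x : X N) (τ : ℍ),
      tw (12 - k y) (g : ℍ → ℂ) x τ = discriminant τ * ((Fmat k f τ)⁻¹) y x := by
  have hdet : ∀ τ : ℍ, (Fmat k f τ).det ≠ 0 := by
    intro τ h0
    have := hW τ
    rw [h0, zero_pow (by norm_num)] at this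
    exact mul_ne_zero hc (zpow_ne_zero _ (discriminant_ne_zero τ)) this.symm
  obtain ⟨Ψ₀, hΨ₀⟩ := cusp_exists_limit N k f
  have hdet0 := cusp_det_limit_ne_zero N k f hgen hind Ψ₀ hΨ₀
  have hΨt := cusp_tendsto_Psi N k f Ψ₀ hΨ₀
  -- the functions `G_x`
  set Gx : X N → ℍ → ℂ := fun x τ => discriminant τ * (Fmat k f τ)⁻¹ y x with hGx
  have hslash : ∀ (x : X N) (h : SL(2, ℤ)), (Gx x) ∣[12 - k y] h = Gx (h⁻¹ • x) :=
    fun x h => cusp_dual_slash N k f hdet y x h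
  have hinv : SlashInv N (12 - k y) (Gx (X.one N)) := by
    intro γ hγ
    rw [hslash]
    congr 1
    rw [X.one, X.smul_mk, X.mk_eq_mk]
    simpa using hγ
  have hol : MDiff (Gx (X.one N)) := by
    refine CuspForm.discriminant.holo'.mul
      (cusp_mdiff_inv (fun τ => Fmat k f τ) ?_ hdet y (X.one N))
    intro i j
    exact tw_mdifferentiable (f j).holo' i
  have hzero : ∀ x, IsZeroAtImInfty (Gx x) := by
    intro x
    have hFinv : ∀ τ : ℍ, (Fmat k f τ)⁻¹ =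
        (Emat N (-(τ : ℂ)) * Fmat k f τ)⁻¹ * Emat N (-(τ : ℂ)) := by
      intro τ
      have h1 : (Emat N (τ : ℂ))⁻¹ = Emat N (-(τ : ℂ)) :=
        Matrix.inv_eq_right_inv (Emat_mul_neg N τ)
      conv_lhs => rw [cusp_Fmat_eq N k f τ, Matrix.mul_inv_rev, h1]
    have hΨinv : Tendsto (fun τ : ℍ => (Emat N (-(τ : ℂ)) * Fmat k f τ)⁻¹) atImInfty
        (𝓝 Ψ₀⁻¹) := by
      have hc : ContinuousAt Inv.inv Ψ₀ := continuousAt_matrix_inv Ψ₀ (by
        rw [Ring.inverse_eq_inv']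
        exact continuousAt_inv₀ hdet0)
      exact hc.tendsto.comp hΨt
    have hΨinvO : ∀ a b, (fun τ : ℍ => (Emat N (-(τ : ℂ)) * Fmat k f τ)⁻¹ a b) =O[atImInfty]
        (fun _ => (1 : ℝ)) := by
      intro a b
      have : Tendsto (fun τ : ℍ => (Emat N (-(τ : ℂ)) * Fmat k f τ)⁻¹ a b) atImInfty
          (𝓝 (Ψ₀⁻¹ a b)) :=
        ((_root_.continuous_apply b).tendsto _).comp (((_root_.continuous_apply a).tendsto _).comp hΨinv)
      exact this.isBigO_one ℝ
    obtain ⟨C, hC⟩ := Emat_bound N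
    have hEO : ∀ a b, (fun τ : ℍ => Emat N (-(τ : ℂ)) a b) =O[atImInfty]
        (fun τ : ℍ => Real.exp (2 * π * (1 - 1 / (N : ℝ)) * τ.im)) := by
      intro a b
      refine IsBigO.of_bound C (Eventually.of_forall fun τ => ?_)
      have := (hC τ τ.im_pos.le a b).2
      rw [Real.norm_of_nonneg (Real.exp_pos _).le]
      simpa using this
    have hprod := cusp_isBigO_mul _ _ hΨinvO hEO y x
    have hG := cusp_discriminant_isBigO.mul hprod
    have hG' : (Gx x) =O[atImInfty] (fun τ : ℍ => Real.exp (-(2 * π / N) * τ.im)) := by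
      refine hG.congr (fun τ => ?_) (fun τ => ?_)
      · simp only [hGx, hFinv τ]
      · rw [one_mul, ← Real.exp_add]
        congr 1
        have hN : (N : ℝ) ≠ 0 := by exact_mod_cast NeZero.ne N
        field_simp
        ring
    exact hG'.trans_tendsto (cusp_tendsto_exp _ (by
      have hN : (0 : ℝ) < N := by exact_mod_cast Nat.pos_of_ne_zero (NeZero.ne N)
      positivity))
  refine ⟨mkCF N (12 - k y) (Gx (X.one N)) hinv hol ?_, ?_⟩
  · intro γ
    rw [hslash]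
    exact hzero _
  · intro x τ
    rw [coe_mkCF]
    obtain ⟨h, rfl⟩ := X.mk_surjective x
    rw [tw_mk hinv, hslash, inv_inv, X.one, X.smul_mk, mul_one]

end Fermat.Agent.S20
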