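import Fermat.Agent.S20.Defs

/-!
# S20 / Elliptic: eigenvalue counts at the elliptic points `i` and `ρ`
-/

set_option autoImplicit false

open UpperHalfPlane hiding I
open ModularForm CongruenceSubgroup Matrix.SpecialLinearGroup Real Complex
open scoped MatrixGroups ModularForm Manifold

namespace Fermat.Agent.S20

/-- If `h` fixes `τ` and the fundamental matrix is invertible at `τ`, then the permutation matrix
of `h` is conjugate to the diagonal matrix of the `denom h τ ^ (-k y)`; compare traces. -/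
lemma ell_sum_eq_fixCount (N : ℕ) [NeZero N] (k : X N → ℤ) (f : ∀ y, ModularForm (Γ N) (k y))
    (h : SL(2, ℤ)) (τ : ℍ) (hτ : h • τ = τ) (hdet : (Fmat k f τ).det ≠ 0) :
    ∑ y, (denom h τ) ^ (-(k y)) = fixCount N h := by
  have H := Fmat_smul k f h τ
  rw [hτ] at H
  have hd : denom h τ ≠ 0 := denom_ne_zero _ _
  have hDD : Matrix.diagonal (fun j => denom h τ ^ k j) *
      Matrix.diagonal (fun j => denom h τ ^ (-(k j))) = (1 : Matrix (X N) (X N) ℂ) := by
    rw [Matrix.diagonal_mul_diagonal, ← Matrix.diagonal_one]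
    congr 1
    funext j
    rw [zpow_neg, mul_inv_cancel₀ (zpow_ne_zero _ hd)]
  have hU : IsUnit (Fmat k f τ).det := isUnit_iff_ne_zero.mpr hdet
  have h1 : Fmat k f τ * Matrix.diagonal (fun j => denom h τ ^ (-(k j))) =
      (Pmat h : Matrix (X N) (X N) ℂ) * Fmat k f τ := by
    conv_lhs => rw [H]
    rw [Matrix.mul_assoc, hDD, Matrix.mul_one]
  have h2 : (Pmat h : Matrix (X N) (X N) ℂ) =
      Fmat k f τ * Matrix.diagonal (fun j => denom h τ ^ (-(k j))) * (Fmat k f τ)⁻¹ := by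
    rw [h1, Matrix.mul_assoc, Matrix.mul_nonsing_inv _ hU, Matrix.mul_one]
  have h3 : Matrix.trace (Pmat h : Matrix (X N) (X N) ℂ) = ∑ y, (denom h τ) ^ (-(k y)) := by
    rw [h2, Matrix.trace_mul_cycle, Matrix.nonsing_inv_mul _ hU, Matrix.one_mul,
      Matrix.trace_diagonal]
  rw [← h3, trace_Pmat]

theorem elliptic_S (N : ℕ) [NeZero N] (k : X N → ℤ) (f : ∀ y, ModularForm (Γ N) (k y))
    (hdet : ∀ τ : ℍ, (Fmat k f τ).det ≠ 0) :
    ∑ y, (Complex.I) ^ (-(k y)) = fixCount N ModularGroup.S := by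
  have hfix : ModularGroup.S • UpperHalfPlane.I = UpperHalfPlane.I := by
    rw [UpperHalfPlane.ext_iff, UpperHalfPlane.modular_S_smul]
    simp [UpperHalfPlane.coe_I]
  have h := ell_sum_eq_fixCount N k f ModularGroup.S UpperHalfPlane.I hfix (hdet _)
  rw [ModularGroup.denom_S] at h
  exact h

theorem elliptic_ST (N : ℕ) [NeZero N] (k : X N → ℤ) (f : ∀ y, ModularForm (Γ N) (k y))
    (hdet : ∀ τ : ℍ, (Fmat k f τ).det ≠ 0) :
    ∃ ζ : ℂ, ζ ^ 2 - ζ + 1 = 0 ∧
      ∑ y, ζ ^ (-(k y)) = fixCount N (ModularGroup.S * ModularGroup.T) := by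
  have hfix : (ModularGroup.S * ModularGroup.T) • UpperHalfPlane.ρ = UpperHalfPlane.ρ := by
    rw [mul_smul, ← ModularGroup.SL_neg_smul ModularGroup.S, ← ModularGroup.S_inv,
      inv_smul_eq_iff, eq_comm, UpperHalfPlane.ext_iff,
      UpperHalfPlane.modular_S_smul, UpperHalfPlane.modular_T_smul, UpperHalfPlane.coe_mk,
      UpperHalfPlane.coe_vadd,
      ← mul_one (_ : ℂ)⁻¹, inv_mul_eq_iff_eq_mul₀ (neg_ne_zero.mpr UpperHalfPlane.ρ.ne_zero)]
    grind [UpperHalfPlane.ρ_sq, Complex.ofReal_one]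
  have hden : denom ((ModularGroup.S * ModularGroup.T : SL(2, ℤ)) : GL (Fin 2) ℝ)
      (UpperHalfPlane.ρ : ℂ) = (UpperHalfPlane.ρ : ℂ) + 1 := by
    have e10 : ((ModularGroup.S * ModularGroup.T : SL(2, ℤ)) 1 0 : ℤ) = 1 := by
      simp [Matrix.SpecialLinearGroup.coe_mul, ModularGroup.coe_S, ModularGroup.coe_T]
    have e11 : ((ModularGroup.S * ModularGroup.T : SL(2, ℤ)) 1 1 : ℤ) = 1 := by
      simp [Matrix.SpecialLinearGroup.coe_mul, ModularGroup.coe_S, ModularGroup.coe_T]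
    rw [ModularGroup.denom_apply, e10, e11]
    simp
  refine ⟨(UpperHalfPlane.ρ : ℂ) + 1, ?_, ?_⟩
  · linear_combination UpperHalfPlane.ρ_sq
  · rw [← hden]
    exact ell_sum_eq_fixCount N k f _ UpperHalfPlane.ρ hfix (hdet _)

end Fermat.Agent.S20
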