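import Fermat.Agent.S20.Defs
import Fermat.Agent.S20.S2.Weights
import Fermat.Agent.S20.S2.Dim

/-!
# S20 / S2: weights of the generators lie in `{0,2,…,10}` and `dim S₂ = #{weight 10 generators}`
-/

set_option autoImplicit false

open UpperHalfPlane hiding I
open ModularForm CongruenceSubgroup Matrix.SpecialLinearGroup Real Complex
open scoped MatrixGroups ModularForm Manifold

namespace Fermat.Agent.S20

theorem weights_and_S2 (N : ℕ) [NeZero N] (k : X N → ℤ) (f : ∀ y, ModularForm (Γ N) (k y))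
    (hgen : Gen k f) (hind : Indep k f) (hdet : ∀ τ : ℍ, (Fmat k f τ).det ≠ 0)
    (hdual : ∀ y, ∃ g : CuspForm (Γ N) (12 - k y), ∀ (x : X N) (τ : ℍ),
      tw (12 - k y) (g : ℍ → ℂ) x τ = discriminant τ * ((Fmat k f τ)⁻¹) y x) :
    (∀ y, 0 ≤ k y ∧ k y ≤ 10 ∧ Even (k y)) ∧
    Fintype.card {y // k y = 0} = 1 ∧
    Module.finrank ℂ (CuspForm (Γ N) 2) = Fintype.card {y // k y = 10} := by
  obtain ⟨h1, h2⟩ := s2_weights N k f hgen hind hdet hdual
  exact ⟨h1, h2, s2_dim N k f h1 hdet hdual⟩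

end Fermat.Agent.S20
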