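import Fermat.Agent.S20.Defs

/-!
# S20 / Sep: a generating family has a fundamental matrix of full rank `[SL(2,ℤ) : Γ₀(N)]`

The separating form is `φ(τ) = N^11 · Δ(Nτ)`, realised as the weight 12 slash of `Δ` by the
matrix `(N, 0; 0, 1)`.  For `γ ∈ SL(2,ℤ)` one has `(N, 0; 0, 1) · γ = δ · (u, t; 0, v)` with
`δ ∈ SL(2,ℤ)`, `u v = N`, `u ∣ c`; comparing the exponential decay at `i∞` of `Δ ∣ (u, t; 0, v)`
and `Δ ∣ (N, 0; 0, 1)` shows that the stabiliser of `φ` is exactly `Γ₀(N)`.  Hence the translates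
of `φ` are pairwise distinct, take pairwise distinct values at some point, and the powers of `φ`
give a Vandermonde matrix.
-/

set_option autoImplicit false

open UpperHalfPlane ModularForm CongruenceSubgroup Matrix.SpecialLinearGroup
open scoped MatrixGroups ModularForm Manifold

namespace Fermat.Agent.S20

noncomputable section

/-- The upper triangular matrix `(u, t; 0, v)` as an element of `GL(2,ℝ)`. -/
def sep_ut (u t v : ℝ) (h : u * v ≠ 0) : GL (Fin 2) ℝ :=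
  Matrix.GeneralLinearGroup.mkOfDetNeZero !![u, t; 0, v] (by
    rw [Matrix.det_fin_two_of]; simpa using h)

lemma sep_ut_val (u t v : ℝ) (h : u * v ≠ 0) :
    ((sep_ut u t v h : GL (Fin 2) ℝ) : Matrix (Fin 2) (Fin 2) ℝ) = !![u, t; 0, v] := rfl

lemma sep_ut_det' (u t v : ℝ) (h : u * v ≠ 0) :
    ((sep_ut u t v h : GL (Fin 2) ℝ) : Matrix (Fin 2) (Fin 2) ℝ).det = u * v := by
  simp [sep_ut_val, Matrix.det_fin_two_of]

lemma sep_ut_det (u t v : ℝ) (h : u * v ≠ 0) : (sep_ut u t v h).det.val = u * v := by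
  rw [Matrix.GeneralLinearGroup.val_det_apply, sep_ut_det']

lemma sep_ut_denom (u t v : ℝ) (h : u * v ≠ 0) (τ : ℍ) : denom (sep_ut u t v h) τ = v := by
  simp [denom, sep_ut_val]

lemma sep_ut_num (u t v : ℝ) (h : u * v ≠ 0) (τ : ℍ) : num (sep_ut u t v h) τ = u * τ + t := by
  simp [num, sep_ut_val]

lemma sep_ut_im (u t v : ℝ) (h : u * v ≠ 0) (hu : 0 < u) (hv : 0 < v) (τ : ℍ) :
    (sep_ut u t v h • τ).im = u / v * τ.im := by
  rw [im_smul_eq_div_normSq, sep_ut_det, sep_ut_denom, abs_of_pos (mul_pos hu hv)]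
  simp [Complex.normSq_apply]
  field_simp

lemma sep_ut_slash (u t v : ℝ) (h : u * v ≠ 0) (hu : 0 < u) (hv : 0 < v) (f : ℍ → ℂ) (k : ℤ)
    (τ : ℍ) : (f ∣[k] sep_ut u t v h) τ =
      f (sep_ut u t v h • τ) * ((u * v : ℝ) : ℂ) ^ (k - 1) * (v : ℂ) ^ (-k) := by
  rw [ModularForm.slash_apply, sep_ut_det, sep_ut_denom, abs_of_pos (mul_pos hu hv)]
  congr 2
  simp [σ, sep_ut_det', mul_pos hu hv]

lemma sep_decomp_int (N : ℕ) [NeZero N] (γ : SL(2, ℤ)) :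
    ∃ (δ : SL(2, ℤ)) (u v t : ℤ), 0 < u ∧ 0 < v ∧ u * v = N ∧
      (N : ℤ) * γ 0 0 = δ 0 0 * u ∧ γ 1 0 = δ 1 0 * u ∧
      (N : ℤ) * γ 0 1 = δ 0 0 * t + δ 0 1 * v ∧ γ 1 1 = δ 1 0 * t + δ 1 1 * v := by
  have hdet : γ 0 0 * γ 1 1 - γ 0 1 * γ 1 0 = 1 := by
    have := γ.det_coe
    rwa [Matrix.det_fin_two] at this
  set a := γ 0 0
  set b := γ 0 1
  set c := γ 1 0
  set d := γ 1 1
  have hN0 : (N : ℤ) ≠ 0 := by exact_mod_cast NeZero.ne N
  have hgpos : 0 < Int.gcd c N := Int.gcd_pos_of_ne_zero_right _ hN0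
  obtain ⟨c', hc'⟩ : ((Int.gcd c N : ℕ) : ℤ) ∣ c := Int.gcd_dvd_left _ _
  obtain ⟨N', hN'⟩ : ((Int.gcd c N : ℕ) : ℤ) ∣ (N : ℤ) := Int.gcd_dvd_right _ _
  have hbez := Int.gcd_eq_gcd_ab c N
  set g : ℤ := ((Int.gcd c N : ℕ) : ℤ) with hg
  have hg0 : 0 < g := Int.natCast_pos.mpr hgpos
  have hcop1 : IsCoprime N' c' := by
    refine ⟨Int.gcdB c N, Int.gcdA c N, ?_⟩
    apply mul_left_cancel₀ hg0.ne'
    linear_combination (-1 : ℤ) * hbez - (Int.gcdA c ↑N) * hc' - (Int.gcdB c ↑N) * hN'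
  have hcop2 : IsCoprime a c' := by
    refine ⟨d, -b * g, ?_⟩
    linear_combination hdet + b * hc'
  obtain ⟨δ, hδ0, hδ1⟩ := (hcop1.mul_left hcop2).exists_SL2_col 0
  have hdetδ : δ 0 0 * δ 1 1 - δ 0 1 * δ 1 0 = 1 := by
    have := δ.det_coe
    rwa [Matrix.det_fin_two] at this
  have hN'pos : 0 < N' := by
    have : (0 : ℤ) < g * N' := by rw [← hN']; exact_mod_cast Nat.pos_of_ne_zero (NeZero.ne N)
    exact (pos_iff_pos_of_mul_pos this).mp hg0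
  rw [hδ0, hδ1] at hdetδ
  refine ⟨δ, g, N', δ 1 1 * N * b - δ 0 1 * d, hg0, hN'pos, hN'.symm, ?_, ?_, ?_, ?_⟩
  · rw [hδ0, hN']; ring
  · rw [hδ1, hc']; ring
  · rw [hδ0]
    linear_combination (-(N : ℤ) * b) * hdetδ + (δ 0 1 * N') * hdet + (δ 0 1 * N' * b) * hc'
      + (-(δ 0 1) * b * c') * hN'
  · rw [hδ1]
    linear_combination (-d) * hdetδ + (δ 1 1 * N') * hdet + (δ 1 1 * b * N') * hc'
      + (-c' * δ 1 1 * b) * hN'

lemma sep_N_ne (N : ℕ) [NeZero N] : (N : ℝ) * 1 ≠ 0 := by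
  simpa using NeZero.ne N

/-- The matrix `(N, 0; 0, 1)`. -/
def sep_A (N : ℕ) [NeZero N] : GL (Fin 2) ℝ := sep_ut N 0 1 (sep_N_ne N)

lemma sep_decomp (N : ℕ) [NeZero N] (γ : SL(2, ℤ)) :
    ∃ (δ : SL(2, ℤ)) (u v t : ℤ) (h : (u : ℝ) * v ≠ 0), 0 < u ∧ 0 < v ∧ u * v = N ∧
      γ 1 0 = δ 1 0 * u ∧ sep_A N * mapGL ℝ γ = mapGL ℝ δ * sep_ut u t v h := by
  obtain ⟨δ, u, v, t, hu, hv, huv, h00, h10, h01, h11⟩ := sep_decomp_int N γ
  have h : (u : ℝ) * v ≠ 0 := by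
    have : u * v ≠ 0 := (mul_pos hu hv).ne'
    exact_mod_cast this
  refine ⟨δ, u, v, t, h, hu, hv, huv, h10, ?_⟩
  apply Matrix.GeneralLinearGroup.ext
  intro i j
  fin_cases i <;> fin_cases j
  · simp [sep_A, sep_ut_val, Matrix.mul_apply, Fin.sum_univ_two, mapGL_coe_matrix]
    exact_mod_cast h00
  · simp [sep_A, sep_ut_val, Matrix.mul_apply, Fin.sum_univ_two, mapGL_coe_matrix]
    exact_mod_cast h01
  · simp [sep_A, sep_ut_val, Matrix.mul_apply, Fin.sum_univ_two, mapGL_coe_matrix]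
    exact_mod_cast h10
  · simp [sep_A, sep_ut_val, Matrix.mul_apply, Fin.sum_univ_two, mapGL_coe_matrix]
    exact_mod_cast h11

open Filter Asymptotics in
lemma sep_ratio (a b : ℝ) (hab : a < b)
    (h : (fun τ : ℍ => Real.exp (-2 * Real.pi * (a * τ.im))) =O[atImInfty]
      (fun τ : ℍ => Real.exp (-2 * Real.pi * (b * τ.im)))) : False := by
  have ho : (fun τ : ℍ => Real.exp (-2 * Real.pi * (b * τ.im))) =o[atImInfty]
      (fun τ : ℍ => Real.exp (-2 * Real.pi * (a * τ.im))) := by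
    rw [Real.isLittleO_exp_comp_exp_comp]
    have hpos : 0 < 2 * Real.pi * (b - a) := by
      have := Real.pi_pos
      have : 0 < b - a := sub_pos.mpr hab
      positivity
    have : Tendsto (fun τ : ℍ => (2 * Real.pi * (b - a)) * τ.im) atImInfty atTop :=
      Filter.tendsto_comap.const_mul_atTop hpos
    refine this.congr fun τ => by ring
  exact Asymptotics.isLittleO_irrefl (Filter.Frequently.of_forall fun τ => (Real.exp_pos _).ne')
    (h.trans_isLittleO ho)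

lemma sep_disc_slash_SL (δ : SL(2, ℤ)) :
    (ModularForm.discriminant : ℍ → ℂ) ∣[(12 : ℤ)] (mapGL ℝ δ) = ModularForm.discriminant :=
  SlashInvariantFormClass.slash_action_eq CuspForm.discriminant _ ⟨δ, rfl⟩

open Filter Asymptotics in
lemma sep_stab_aux (N : ℕ) [NeZero N] (u t v : ℝ) (hu : 0 < u) (hv : 0 < v) (h : u * v ≠ 0)
    (heq : (ModularForm.discriminant : ℍ → ℂ) ∣[(12 : ℤ)] sep_ut u t v h =
      (ModularForm.discriminant : ℍ → ℂ) ∣[(12 : ℤ)] sep_A N) : ¬ (u / v < N) := by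
  intro hlt
  have hN : (0 : ℝ) < N := by exact_mod_cast Nat.pos_of_ne_zero (NeZero.ne N)
  set U := sep_ut u t v h with hU
  have key : ∀ τ : ℍ, ModularForm.discriminant (U • τ) =
      ModularForm.discriminant (sep_A N • τ) *
        ((((N * 1 : ℝ) : ℂ) ^ ((12 : ℤ) - 1) * ((1 : ℝ) : ℂ) ^ (-(12 : ℤ))) /
          (((u * v : ℝ) : ℂ) ^ ((12 : ℤ) - 1) * (v : ℂ) ^ (-(12 : ℤ)))) := by
    intro τ
    have h1 := congrFun heq τ
    rw [sep_ut_slash u t v h hu hv, sep_A, sep_ut_slash (N : ℝ) 0 1 (sep_N_ne N) hN one_pos] at h1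
    have hc : (((u * v : ℝ) : ℂ) ^ ((12 : ℤ) - 1) * (v : ℂ) ^ (-(12 : ℤ))) ≠ 0 := by
      apply mul_ne_zero
      · exact zpow_ne_zero _ (by exact_mod_cast h)
      · exact zpow_ne_zero _ (by exact_mod_cast hv.ne')
    rw [← mul_div_assoc, eq_div_iff hc]
    rw [mul_assoc, mul_assoc] at h1
    exact h1
  have hU10 : (U : GL (Fin 2) ℝ) 1 0 = 0 := by simp [hU, sep_ut_val]
  have hA10 : (sep_A N : GL (Fin 2) ℝ) 1 0 = 0 := by simp [sep_A, sep_ut_val]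
  have h1 := (exp_isBigO_discriminant.comp_tendsto (tendsto_smul_atImInfty hU10))
  have h2 := ((CuspFormClass.exp_decay_atImInfty (h := 1) CuspForm.discriminant one_pos
    one_mem_strictPeriods_SL).comp_tendsto (tendsto_smul_atImInfty hA10))
  have h3 : ((ModularForm.discriminant : ℍ → ℂ) ∘ fun τ => U • τ) =O[atImInfty]
      ((ModularForm.discriminant : ℍ → ℂ) ∘ fun τ => sep_A N • τ) := by
    have : ((ModularForm.discriminant : ℍ → ℂ) ∘ fun τ => U • τ) = fun τ =>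
        ((ModularForm.discriminant : ℍ → ℂ) ∘ fun τ => sep_A N • τ) τ *
        ((((N * 1 : ℝ) : ℂ) ^ ((12 : ℤ) - 1) * ((1 : ℝ) : ℂ) ^ (-(12 : ℤ))) /
          (((u * v : ℝ) : ℂ) ^ ((12 : ℤ) - 1) * (v : ℂ) ^ (-(12 : ℤ)))) := by
      funext τ
      exact key τ
    rw [this]
    refine IsBigO.of_bound ‖((((N * 1 : ℝ) : ℂ) ^ ((12 : ℤ) - 1) * ((1 : ℝ) : ℂ) ^ (-(12 : ℤ))) /
          (((u * v : ℝ) : ℂ) ^ ((12 : ℤ) - 1) * (v : ℂ) ^ (-(12 : ℤ))))‖
      (Filter.Eventually.of_forall fun τ => ?_)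
    rw [norm_mul, mul_comm]
  have h4 := (h1.trans h3).trans h2
  refine sep_ratio (u / v) N hlt ?_
  refine h4.congr (fun τ => ?_) (fun τ => ?_)
  · simp only [Function.comp_apply, hU, sep_ut_im u t v h hu hv]
  · simp only [Function.comp_apply, sep_A, sep_ut_im (N : ℝ) 0 1 (sep_N_ne N) hN one_pos]
    congr 1
    ring

/-- The function `τ ↦ N^11 · Δ(Nτ)`. -/
def sep_phiFun (N : ℕ) [NeZero N] : ℍ → ℂ :=
  (ModularForm.discriminant : ℍ → ℂ) ∣[(12 : ℤ)] sep_A N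

lemma sep_phi_slash (N : ℕ) [NeZero N] (γ : SL(2, ℤ)) :
    ∃ (u v t : ℤ) (h : (u : ℝ) * v ≠ 0), 0 < u ∧ 0 < v ∧ u * v = N ∧ u ∣ γ 1 0 ∧
      sep_phiFun N ∣[(12 : ℤ)] γ =
        (ModularForm.discriminant : ℍ → ℂ) ∣[(12 : ℤ)] sep_ut u t v h := by
  obtain ⟨δ, u, v, t, h, hu, hv, huv, h10, hmat⟩ := sep_decomp N γ
  refine ⟨u, v, t, h, hu, hv, huv, ⟨δ 1 0, by rw [h10]; ring⟩, ?_⟩
  change (_ ∣[(12 : ℤ)] sep_A N) ∣[(12 : ℤ)] (mapGL ℝ γ) = _
  rw [← SlashAction.slash_mul, hmat, SlashAction.slash_mul, sep_disc_slash_SL]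

lemma sep_phiFun_mdiff (N : ℕ) [NeZero N] : MDiff (sep_phiFun N) :=
  CuspForm.discriminant.holo'.slash 12 _

lemma sep_phiFun_inv (N : ℕ) [NeZero N] : SlashInv N 12 (sep_phiFun N) := by
  intro γ hγ
  rw [Gamma0_mem] at hγ
  obtain ⟨c', hc'⟩ := (ZMod.intCast_zmod_eq_zero_iff_dvd _ _).mp hγ
  have hdet : γ 0 0 * γ 1 1 - γ 0 1 * γ 1 0 = 1 := by
    have := γ.det_coe
    rwa [Matrix.det_fin_two] at this
  obtain ⟨γ', e00, e01, e10, e11⟩ : ∃ γ' : SL(2, ℤ), γ' 0 0 = γ 0 0 ∧ γ' 0 1 = N * γ 0 1 ∧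
      γ' 1 0 = c' ∧ γ' 1 1 = γ 1 1 :=
    ⟨⟨!![γ 0 0, N * γ 0 1; c', γ 1 1], by
      rw [Matrix.det_fin_two_of]; rw [hc'] at hdet; linear_combination hdet⟩, rfl, rfl, rfl, rfl⟩
  have hmat : sep_A N * mapGL ℝ γ = mapGL ℝ γ' * sep_A N := by
    apply Matrix.GeneralLinearGroup.ext
    intro i j
    fin_cases i <;> fin_cases j
    · simp [sep_A, sep_ut_val, Matrix.mul_apply, Fin.sum_univ_two, mapGL_coe_matrix]
      rw [e00]; ring
    · simp [sep_A, sep_ut_val, Matrix.mul_apply, Fin.sum_univ_two, mapGL_coe_matrix]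
      rw [e01]; push_cast; ring
    · simp [sep_A, sep_ut_val, Matrix.mul_apply, Fin.sum_univ_two, mapGL_coe_matrix]
      rw [e10, hc']; push_cast; ring
    · simp [sep_A, sep_ut_val, Matrix.mul_apply, Fin.sum_univ_two, mapGL_coe_matrix]
      rw [e11]
  change (_ ∣[(12 : ℤ)] sep_A N) ∣[(12 : ℤ)] (mapGL ℝ γ) = _
  rw [← SlashAction.slash_mul, hmat, SlashAction.slash_mul, sep_disc_slash_SL]
  rfl

open Filter in
lemma sep_phiFun_bdd (N : ℕ) [NeZero N] (γ : SL(2, ℤ)) :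
    IsBoundedAtImInfty (sep_phiFun N ∣[(12 : ℤ)] γ) := by
  obtain ⟨u, v, t, h, hu, hv, huv, -, heq⟩ := sep_phi_slash N γ
  rw [heq]
  have hu' : (0 : ℝ) < u := by exact_mod_cast hu
  have hv' : (0 : ℝ) < v := by exact_mod_cast hv
  have h10 : (sep_ut u t v h : GL (Fin 2) ℝ) 1 0 = 0 := by simp [sep_ut_val]
  have hz : Tendsto (fun τ : ℍ => ModularForm.discriminant (sep_ut u t v h • τ) *
      ((u * v : ℝ) : ℂ) ^ ((12 : ℤ) - 1) * ((v : ℝ) : ℂ) ^ (-(12 : ℤ))) atImInfty (nhds 0) := by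
    have h0 := (discriminant_isZeroAtImInfty.comp (tendsto_smul_atImInfty h10))
    have := (h0.mul_const (((u * v : ℝ) : ℂ) ^ ((12 : ℤ) - 1))).mul_const
      (((v : ℝ) : ℂ) ^ (-(12 : ℤ)))
    simpa using this
  have hfun : (ModularForm.discriminant : ℍ → ℂ) ∣[(12 : ℤ)] sep_ut u t v h =
      fun τ : ℍ => ModularForm.discriminant (sep_ut u t v h • τ) *
      ((u * v : ℝ) : ℂ) ^ ((12 : ℤ) - 1) * ((v : ℝ) : ℂ) ^ (-(12 : ℤ)) := by
    funext τ
    exact sep_ut_slash u t v h hu' hv' _ _ τ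
  rw [hfun]
  exact IsZeroAtImInfty.isBoundedAtImInfty hz

lemma sep_stab (N : ℕ) [NeZero N] (γ : SL(2, ℤ))
    (hγ : sep_phiFun N ∣[(12 : ℤ)] γ = sep_phiFun N) : γ ∈ Gamma0 N := by
  obtain ⟨u, v, t, h, hu, hv, huv, hdvd, heq⟩ := sep_phi_slash N γ
  rw [hγ] at heq
  have hu' : (0 : ℝ) < u := by exact_mod_cast hu
  have hv' : (0 : ℝ) < v := by exact_mod_cast hv
  have hnot := sep_stab_aux N u t v hu' hv' h heq.symm
  have hv1 : v = 1 := by
    by_contra hne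
    have hv2 : (2 : ℤ) ≤ v := by omega
    apply hnot
    have hv2' : (2 : ℝ) ≤ v := by exact_mod_cast hv2
    have huv' : (u : ℝ) * v = N := by exact_mod_cast huv
    rw [← huv', div_lt_iff₀ hv']
    nlinarith
  rw [hv1, mul_one] at huv
  rw [Gamma0_mem, ZMod.intCast_zmod_eq_zero_iff_dvd, ← huv]
  exact hdvd

/-- `N^11 · Δ(Nτ)` as a modular form of level `Γ₀(N)` and weight 12. -/
def sep_phi (N : ℕ) [NeZero N] : ModularForm (Γ N) 12 :=
  mkMF N 12 (sep_phiFun N) (sep_phiFun_inv N) (sep_phiFun_mdiff N) (sep_phiFun_bdd N)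

lemma sep_tw_injective (N : ℕ) [NeZero N] :
    Function.Injective (fun x : X N => tw 12 (sep_phiFun N) x) := by
  intro x y hxy
  obtain ⟨g, rfl⟩ := X.mk_surjective x
  obtain ⟨h, rfl⟩ := X.mk_surjective y
  simp only [tw_mk (sep_phiFun_inv N)] at hxy
  rw [X.mk_eq_mk]
  apply sep_stab
  rw [SlashAction.slash_mul, hxy, ← SlashAction.slash_mul, inv_mul_cancel, SlashAction.slash_one]

lemma sep_exists_point (N : ℕ) [NeZero N] :
    ∃ τ₀ : ℍ, Function.Injective (fun x : X N => tw 12 (sep_phiFun N) x τ₀) := by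
  classical
  let s : Finset (X N × X N) := Finset.univ.filter (fun p => p.1 ≠ p.2)
  let F : X N × X N → ℍ → ℂ := fun p => tw 12 (sep_phiFun N) p.1 - tw 12 (sep_phiFun N) p.2
  have hF : ∀ p ∈ s, MDiff (F p) := fun p _ =>
    (tw_mdifferentiable (sep_phiFun_mdiff N) p.1).sub (tw_mdifferentiable (sep_phiFun_mdiff N) p.2)
  have hne : ∏ p ∈ s, F p ≠ 0 := by
    rw [Ne, UpperHalfPlane.prod_eq_zero_iff hF]
    rintro ⟨p, hp, hp0⟩
    have : tw 12 (sep_phiFun N) p.1 = tw 12 (sep_phiFun N) p.2 := sub_eq_zero.mp hp0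
    exact (Finset.mem_filter.mp hp).2 (sep_tw_injective N this)
  obtain ⟨τ₀, hτ₀⟩ : ∃ τ₀, (∏ p ∈ s, F p) τ₀ ≠ 0 := by
    by_contra hcon
    push Not at hcon
    exact hne (funext hcon)
  refine ⟨τ₀, fun x y hxy => ?_⟩
  by_contra hne'
  apply hτ₀
  rw [Finset.prod_apply]
  exact Finset.prod_eq_zero (i := (x, y)) (Finset.mem_filter.mpr ⟨Finset.mem_univ _, hne'⟩)
    (sub_eq_zero.mpr hxy)

lemma sep_tw_pow {N : ℕ} (k : ℤ) (f : ℍ → ℂ) (x : X N) (l : ℕ) :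
    tw ((l : ℤ) * k) (f ^ l) x = (tw k f x) ^ l := by
  induction l with
  | zero =>
    simp only [Nat.cast_zero, zero_mul, pow_zero]
    rw [tw]
    exact is_invariant_one _
  | succ l ih =>
    have : ((l + 1 : ℕ) : ℤ) * k = (l : ℤ) * k + k := by push_cast; ring
    rw [this, pow_succ, tw_mul, ih, pow_succ]

lemma sep_tw_mul_levelOne {N : ℕ} (w k : ℤ) (p : ModularForm 𝒮ℒ (w - k)) (f : ℍ → ℂ) (x : X N) :
    tw w ((p : ℍ → ℂ) * f) x = (p : ℍ → ℂ) * tw k f x := by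
  have := tw_mul (w - k) k (p : ℍ → ℂ) f x
  rw [sub_add_cancel] at this
  rw [this, tw_levelOne]

/-- If `f` generates `M_*(Γ₀(N))` over the level one forms, then at some point `τ₀` the fundamental
matrix has full row rank (witnessed by a right factor `P` making the product invertible). -/
theorem exists_det_ne_zero (N : ℕ) [NeZero N] (n : ℕ) (k : Fin n → ℤ)
    (f : ∀ j, ModularForm (Γ N) (k j)) (hgen : Gen k f) :
    ∃ (τ₀ : ℍ) (P : Matrix (Fin n) (X N) ℂ), (Fmat k f τ₀ * P).det ≠ 0 := by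
  classical
  obtain ⟨τ₀, hτ₀⟩ := sep_exists_point N
  have hrep : ∀ l : ℕ, ∃ p : ∀ j, ModularForm 𝒮ℒ ((l : ℤ) * 12 - k j),
      (((sep_phi N).pow l : ModularForm (Γ N) ((l : ℤ) * 12)) : ℍ → ℂ) =
        ∑ j, (p j : ℍ → ℂ) * (f j : ℍ → ℂ) :=
    fun l => hgen _ _
  choose p hp using hrep
  let e : X N ≃ Fin (Fintype.card (X N)) := Fintype.equivFin (X N)
  let a : X N → ℂ := fun x => tw 12 (sep_phiFun N) x τ₀
  refine ⟨τ₀, Matrix.of fun j x' => p (e x') j τ₀, ?_⟩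
  have hM : Fmat k f τ₀ * (Matrix.of fun j x' => p (e x') j τ₀) =
      (Matrix.vandermonde (a ∘ e.symm)).submatrix e e := by
    ext x x'
    simp only [Matrix.mul_apply, Fmat, Matrix.submatrix_apply, Matrix.vandermonde_apply,
      Function.comp, Equiv.symm_apply_apply, Matrix.of_apply]
    have h1 := congrArg (fun F => tw (((e x' : ℕ) : ℤ) * 12) F x τ₀) (hp (e x'))
    simp only [ModularForm.coe_pow, sep_phi, coe_mkMF, sep_tw_pow, tw_sum, sep_tw_mul_levelOne,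
      Pi.pow_apply, Finset.sum_apply, Pi.mul_apply] at h1
    rw [h1]
    exact Finset.sum_congr rfl fun j _ => mul_comm _ _
  rw [hM, Matrix.det_submatrix_equiv_self, Matrix.det_vandermonde_ne_zero_iff]
  exact hτ₀.comp e.symm.injective

end

end Fermat.Agent.S20
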