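import Fermat.Agent.S20.Defs

/-!
# S20 / Wronskian: the determinant of the fundamental matrix is a power of `Δ` (up to a 12th root)
-/

set_option autoImplicit false

open UpperHalfPlane ModularForm CongruenceSubgroup Matrix.SpecialLinearGroup
open scoped MatrixGroups ModularForm Manifold

namespace Fermat.Agent.S20

open Derivative in
/-- Cauchy estimate: the normalised derivative of a holomorphic function bounded at `i∞` is
bounded at `i∞`. -/
lemma wron_D_isBoundedAtImInfty {F : ℍ → ℂ} (hF : MDiff F) (hb : IsBoundedAtImInfty F) :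
    IsBoundedAtImInfty (normalizedDerivOfComplex F) := by
  rw [UpperHalfPlane.isBoundedAtImInfty_iff] at hb ⊢
  obtain ⟨M, A, hMA⟩ := hb
  refine ⟨‖(2 * Real.pi * Complex.I : ℂ)⁻¹‖ * M, max A 1 + 1, fun z hz => ?_⟩
  have hF' := UpperHalfPlane.mdifferentiable_iff.mp hF
  have him : ∀ w ∈ Metric.closedBall (z : ℂ) 1, max A 1 ≤ w.im := by
    intro w hw
    rw [Metric.mem_closedBall, Complex.dist_eq] at hw
    have h1 : |(w - (z : ℂ)).im| ≤ ‖w - (z : ℂ)‖ := Complex.abs_im_le_norm _
    have h2 : (w - (z : ℂ)).im = w.im - z.im := by simp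
    rw [h2] at h1
    have h3 := (abs_le.mp (h1.trans hw)).1
    linarith
  have hsub : Metric.closedBall (z : ℂ) 1 ⊆ {w : ℂ | 0 < w.im} := by
    intro w hw
    have := him w hw
    have h1 : (1 : ℝ) ≤ max A 1 := le_max_right _ _
    show 0 < w.im
    linarith
  have hd : DiffContOnCl ℂ (F ∘ ofComplex) (Metric.ball (z : ℂ) 1) :=
    hF'.diffContOnCl_ball hsub
  have hC : ∀ w ∈ Metric.sphere (z : ℂ) 1, ‖(F ∘ ofComplex) w‖ ≤ M := by
    intro w hw
    have hw' := Metric.sphere_subset_closedBall hw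
    have h0 : 0 < w.im := hsub hw'
    have h1 := him w hw'
    rw [Function.comp_apply, ofComplex_apply_of_im_pos h0]
    apply hMA
    have h2 : A ≤ max A 1 := le_max_left _ _
    exact h2.trans h1
  have := Complex.norm_deriv_le_of_forall_mem_sphere_norm_le one_pos hd hC
  rw [normalizedDerivOfComplex, norm_mul]
  rw [div_one] at this
  exact mul_le_mul_of_nonneg_left this (norm_nonneg _)

/-- Derivative of a determinant: sum over the columns of the determinant with that column
replaced by its derivative. -/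
lemma wron_hasDerivAt_det {n : Type*} [Fintype n] [DecidableEq n] (M : ℂ → Matrix n n ℂ)
    (M' : Matrix n n ℂ) (z : ℂ) (h : ∀ i j, HasDerivAt (fun w => M w i j) (M' i j) z) :
    HasDerivAt (fun w => (M w).det)
      (∑ j, ((M z).updateCol j (fun i => M' i j)).det) z := by
  simp only [Matrix.det_apply']
  rw [Finset.sum_comm]
  apply HasDerivAt.fun_sum
  intro σ _
  rw [← Finset.mul_sum]
  apply HasDerivAt.const_mul
  have h1 := HasDerivAt.fun_finsetProd (u := Finset.univ) (f := fun i w => M w (σ i) i)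
    (f' := fun i => M' (σ i) i) (x := z) (fun i _ => h (σ i) i)
  convert h1 using 1
  apply Finset.sum_congr rfl
  intro j _
  rw [← Finset.prod_erase_mul _ _ (Finset.mem_univ j), Matrix.updateCol_self, smul_eq_mul]
  congr 1
  apply Finset.prod_congr rfl
  intro i hi
  rw [Matrix.updateCol_ne (Finset.ne_of_mem_erase hi)]

/-- Replacing column `j` by a linear combination of the columns multiplies the determinant by
the `j`-th coefficient. -/
lemma wron_det_updateCol {n : Type*} [Fintype n] [DecidableEq n] (A : Matrix n n ℂ) (c : n → ℂ)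
    (r : ℂ) (j : n) :
    (A.updateCol j (fun i => r * ∑ z, A i z * c z)).det = r * (A.det * c j) := by
  have h1 : (fun i => r * ∑ z, A i z * c z) = r • (A.mulVec c) := by
    ext i; simp [Matrix.mulVec, dotProduct]
  rw [h1, Matrix.det_updateCol_smul, ← Matrix.cramer_apply, Matrix.cramer_eq_adjugate_mulVec,
    Matrix.mulVec_mulVec, Matrix.adjugate_mul, Matrix.smul_mulVec, Matrix.one_mulVec]
  simp

/-- `Δ' = 2πi · E₂ · Δ`. -/
lemma wron_hasDerivAt_discriminant (τ : ℍ) :
    HasDerivAt (discriminant ∘ ofComplex)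
      (2 * Real.pi * Complex.I * (EisensteinSeries.E2 τ * discriminant τ)) (τ : ℂ) := by
  have hη : DifferentiableAt ℂ eta (τ : ℂ) := differentiableAt_eta_of_mem_upperHalfPlaneSet τ.2
  have hne : eta (τ : ℂ) ≠ 0 := eta_ne_zero τ.2
  have hlog := logDeriv_eta_eq_E2 τ
  rw [logDeriv_apply, div_eq_iff hne] at hlog
  have h1 : HasDerivAt eta (Real.pi * Complex.I / 12 * EisensteinSeries.E2 τ * eta (τ : ℂ))
      (τ : ℂ) := by
    rw [← hlog]; exact hη.hasDerivAt
  have h2 := h1.fun_pow 24
  have heq : (discriminant ∘ ofComplex) =ᶠ[nhds (τ : ℂ)] fun w => eta w ^ 24 := by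
    filter_upwards [isOpen_upperHalfPlaneSet.mem_nhds τ.im_pos] with w hw
    rw [Function.comp_apply, discriminant, ofComplex_apply_of_im_pos hw]
  refine (h2.congr_of_eventuallyEq heq).congr_deriv ?_
  rw [discriminant]
  push_cast
  ring

open Derivative in
lemma wron_serre_bdd {N : ℕ} [NeZero N] {w : ℤ} (g : ModularForm (Γ N) w) (γ : SL(2, ℤ)) :
    IsBoundedAtImInfty (serreDerivative (w : ℂ) (g : ℍ → ℂ) ∣[w + 2] γ) := by
  rw [serreDerivative_slash_equivariant (ModularFormClass.holo g)]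
  have hb : IsBoundedAtImInfty ((g : ℍ → ℂ) ∣[w] γ) := ModularFormClass.bdd_at_infty_slash g γ
  have hm : MDiff ((g : ℍ → ℂ) ∣[w] γ) := by
    rw [SL_slash]; exact (ModularFormClass.holo g).slash w _
  have h1 := wron_D_isBoundedAtImInfty hm hb
  have h2 : IsBoundedAtImInfty
      (((w : ℂ) * 12⁻¹) • (EisensteinSeries.E2 * ((g : ℍ → ℂ) ∣[w] γ))) :=
    Filter.BoundedAtFilter.smul _ (Filter.BoundedAtFilter.mul EisensteinSeries.isBoundedAtImInfty_E2 hb)
  have h3 := Filter.BoundedAtFilter.add h1 (Filter.BoundedAtFilter.neg h2)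
  have e : serreDerivative (w : ℂ) ((g : ℍ → ℂ) ∣[w] γ) =
      normalizedDerivOfComplex ((g : ℍ → ℂ) ∣[w] γ) +
        -(((w : ℂ) * 12⁻¹) • (EisensteinSeries.E2 * ((g : ℍ → ℂ) ∣[w] γ))) := by
    ext z
    simp only [serreDerivative_apply, Pi.add_apply, Pi.neg_apply, Pi.smul_apply, Pi.mul_apply,
      smul_eq_mul]
    ring
  rw [e]
  exact h3

open Derivative in
/-- The Serre derivative preserves modular forms of level `Γ₀(N)`. -/
lemma wron_exists_theta {N : ℕ} [NeZero N] {w : ℤ} (g : ModularForm (Γ N) w) :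
    ∃ h : ModularForm (Γ N) (w + 2), (h : ℍ → ℂ) = serreDerivative (w : ℂ) (g : ℍ → ℂ) :=
  ⟨mkMF N (w + 2) (serreDerivative (w : ℂ) (g : ℍ → ℂ))
    (fun γ hγ => serreDerivative_slash_invariant (ModularFormClass.holo g) (inv_of_modularForm g γ hγ))
    (serreDerivative_mdifferentiable _ (ModularFormClass.holo g))
    (fun γ => wron_serre_bdd g γ), rfl⟩

lemma wron_weight_two_eq_zero (w : ℤ) (hw : w = 2) (p : ModularForm 𝒮ℒ w) : p = 0 := by
  subst hw
  have := ModularForm.levelOne_weight_two_rank_zero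
  rw [rank_zero_iff_forall_zero] at this
  exact this p

lemma wron_tw_mul {N : ℕ} (K k₁ k₂ : ℤ) (hK : K = k₁ + k₂) (f g : ℍ → ℂ) (x : X N) :
    tw K (f * g) x = tw k₁ f x * tw k₂ g x := by
  subst hK; exact tw_mul k₁ k₂ f g x

open Derivative in
/-- The differential equation satisfied by the entries of the fundamental matrix. -/
lemma wron_entry {N : ℕ} [NeZero N] (k : X N → ℤ) (f : ∀ y, ModularForm (Γ N) (k y))
    (y : X N) (a : ∀ z, ModularForm 𝒮ℒ (k y + 2 - k z))
    (ha : serreDerivative (k y : ℂ) (f y : ℍ → ℂ) = ∑ z, (a z : ℍ → ℂ) * (f z : ℍ → ℂ))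
    (x : X N) (τ : ℍ) :
    HasDerivAt (tw (k y) (f y : ℍ → ℂ) x ∘ ofComplex)
      (2 * Real.pi * Complex.I * ∑ z, Fmat k f τ x z *
        (a z τ + if z = y then (k y : ℂ) * 12⁻¹ * EisensteinSeries.E2 τ else 0)) (τ : ℂ) := by
  have hG : MDiff (tw (k y) (f y : ℍ → ℂ) x) := tw_mdifferentiable (ModularFormClass.holo (f y)) x
  have h1 : serreDerivative (k y : ℂ) (tw (k y) (f y : ℍ → ℂ) x) =
      ∑ z, (a z : ℍ → ℂ) * tw (k z) (f z : ℍ → ℂ) x := by
    have e1 : serreDerivative (k y : ℂ) (tw (k y) (f y : ℍ → ℂ) x) =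
        tw (k y + 2) (serreDerivative (k y : ℂ) (f y : ℍ → ℂ)) x :=
      (serreDerivative_slash_equivariant (ModularFormClass.holo (f y))).symm
    rw [e1, ha, tw_sum]
    apply Finset.sum_congr rfl
    intro z _
    rw [wron_tw_mul (k y + 2) (k y + 2 - k z) (k z) (by ring), tw_levelOne]
  have h2 := congrFun h1 τ
  rw [serreDerivative_apply, normalizedDerivOfComplex, Finset.sum_apply] at h2
  have h3 := (UpperHalfPlane.mdifferentiableAt_iff.mp (hG τ)).hasDerivAt
  refine h3.congr_deriv ?_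
  have hpi : (2 * Real.pi * Complex.I : ℂ) ≠ 0 := by
    simp [Real.pi_ne_zero]
  have h4 : deriv (tw (k y) (f y : ℍ → ℂ) x ∘ ofComplex) (τ : ℂ) =
      2 * Real.pi * Complex.I * (∑ z, ((a z : ℍ → ℂ) * tw (k z) (f z : ℍ → ℂ) x) τ +
        (k y : ℂ) * 12⁻¹ * EisensteinSeries.E2 τ * tw (k y) (f y : ℍ → ℂ) x τ) := by
    rw [← h2]; field_simp; ring
  rw [h4]
  congr 1
  simp only [mul_add, Finset.sum_add_distrib, mul_ite, mul_zero, Finset.sum_ite_eq',
    Finset.mem_univ, if_true, Fmat, Pi.mul_apply]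
  congr 1
  · apply Finset.sum_congr rfl; intro z _; ring
  · ring

/-- For a generating family indexed by `X N`, `det(F)^12 = c · Δ^K` with `K` the sum of the
weights (an integer power; `Δ` never vanishes). -/
theorem wronskian (N : ℕ) [NeZero N] (k : X N → ℤ) (f : ∀ y, ModularForm (Γ N) (k y))
    (hgen : Gen k f) :
    ∃ c : ℂ, ∀ τ : ℍ, (Fmat k f τ).det ^ 12 = c * (discriminant τ) ^ (∑ y, k y) := by
  -- the coefficients of the Serre derivatives of the generators
  have hcoef : ∀ y, ∃ a : ∀ z, ModularForm 𝒮ℒ (k y + 2 - k z),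
      Derivative.serreDerivative (k y : ℂ) (f y : ℍ → ℂ) =
        ∑ z, (a z : ℍ → ℂ) * (f z : ℍ → ℂ) := by
    intro y
    obtain ⟨h, hh⟩ := wron_exists_theta (f y)
    obtain ⟨p, hp⟩ := hgen (k y + 2) h
    exact ⟨p, by rw [← hh, hp]⟩
  choose a ha using hcoef
  have hdiag : ∀ y, a y y = 0 := fun y => wron_weight_two_eq_zero _ (by ring) _
  -- derivative of the determinant
  have hdet : ∀ τ : ℍ, HasDerivAt (fun w : ℂ => (Fmat k f (ofComplex w)).det)
      (2 * Real.pi * Complex.I *
        (((∑ y, k y : ℤ) : ℂ) * 12⁻¹ * EisensteinSeries.E2 τ * (Fmat k f τ).det)) (τ : ℂ) := by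
    intro τ
    have h1 := wron_hasDerivAt_det (fun w => Fmat k f (ofComplex w))
      (fun x y => 2 * Real.pi * Complex.I * ∑ z, Fmat k f τ x z *
        (a y z τ + if z = y then (k y : ℂ) * 12⁻¹ * EisensteinSeries.E2 τ else 0)) (τ : ℂ)
      (fun x y => wron_entry k f y (a y) (ha y) x τ)
    refine h1.congr_deriv ?_
    rw [ofComplex_apply]
    have h2 : ∀ j, ((Fmat k f τ).updateCol j (fun i => 2 * Real.pi * Complex.I *
        ∑ z, Fmat k f τ i z *
          (a j z τ + if z = j then (k j : ℂ) * 12⁻¹ * EisensteinSeries.E2 τ else 0))).det =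
        2 * Real.pi * Complex.I * ((k j : ℂ) * 12⁻¹ * EisensteinSeries.E2 τ * (Fmat k f τ).det) := by
      intro j
      rw [wron_det_updateCol, hdiag j]
      simp
      ring
    rw [Finset.sum_congr rfl (fun j _ => h2 j), ← Finset.mul_sum, Int.cast_sum, Finset.sum_mul,
      Finset.sum_mul, Finset.sum_mul]
  -- the auxiliary function
  have hderiv : ∀ w : ℂ, 0 < w.im → HasDerivAt
      (fun w : ℂ => (Fmat k f (ofComplex w)).det ^ 12 *
        (discriminant (ofComplex w)) ^ (-(∑ y, k y))) 0 w := by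
    intro w hw
    obtain ⟨τ, rfl⟩ : ∃ τ : ℍ, (τ : ℂ) = w := ⟨⟨w, hw⟩, rfl⟩
    have hd := hdet τ
    have hΔ := wron_hasDerivAt_discriminant τ
    have hΔ0 : (discriminant ∘ ofComplex) (τ : ℂ) ≠ 0 := by
      rw [Function.comp_apply, ofComplex_apply]; exact discriminant_ne_zero τ
    have h1 := hd.fun_pow 12
    have h2 := (hasDerivAt_zpow (-(∑ y, k y)) _ (Or.inl hΔ0)).comp (τ : ℂ) hΔ
    have h3 := h1.mul h2
    refine h3.congr_deriv ?_
    simp only [Function.comp_apply, ofComplex_apply]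
    have hz : discriminant τ ^ (-(∑ y, k y) - 1) =
        discriminant τ ^ (-(∑ y, k y)) / discriminant τ :=
      zpow_sub_one₀ (discriminant_ne_zero τ) _
    rw [hz]
    have hne := discriminant_ne_zero τ
    field_simp
    push_cast
    ring
  have hconst : ∀ w : ℂ, 0 < w.im →
      (Fmat k f (ofComplex w)).det ^ 12 * (discriminant (ofComplex w)) ^ (-(∑ y, k y)) =
      (Fmat k f (ofComplex Complex.I)).det ^ 12 *
        (discriminant (ofComplex Complex.I)) ^ (-(∑ y, k y)) := by
    intro w hw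
    exact isOpen_upperHalfPlaneSet.is_const_of_deriv_eq_zero
      (convex_halfSpace_im_gt 0).isPreconnected
      (fun z hz => (hderiv z hz).differentiableAt.differentiableWithinAt)
      (fun z hz => (hderiv z hz).deriv) hw (by simp)
  refine ⟨(Fmat k f (ofComplex Complex.I)).det ^ 12 *
        (discriminant (ofComplex Complex.I)) ^ (-(∑ y, k y)), fun τ => ?_⟩
  have h := hconst τ τ.im_pos
  rw [← h, ofComplex_apply, mul_assoc, ← zpow_add₀ (discriminant_ne_zero τ)]
  simp

end Fermat.Agent.S20
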