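import Fermat.Agent.S20.Defs
import Fermat.Agent.S20.Comb
import Fermat.Agent.S20.Basis
import Fermat.Agent.S20.Sep
import Fermat.Agent.S20.Wronskian
import Fermat.Agent.S20.Cusp
import Fermat.Agent.S20.Elliptic
import Fermat.Agent.S20.S2
import Fermat.Agent.S20.Arith

/-!
# S20 / Assembly: putting the pieces together
-/

set_option autoImplicit false

open UpperHalfPlane hiding I
open ModularForm CongruenceSubgroup Matrix.SpecialLinearGroup
open scoped MatrixGroups ModularForm Manifold

namespace Fermat.Agent.S20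

/-- A free basis indexed by the coset space itself, with nonvanishing determinant somewhere. -/
theorem exists_basis_X (N : ℕ) [NeZero N] :
    ∃ (k : X N → ℤ) (f : ∀ y, ModularForm (Γ N) (k y)),
      Gen k f ∧ Indep k f ∧ ∃ τ₀ : ℍ, (Fmat k f τ₀).det ≠ 0 := by
  classical
  obtain ⟨n, k₀, f₀, hgen₀, hind₀, hn⟩ := exists_basis_fin N
  obtain ⟨τ₀, P, hP⟩ := exists_det_ne_zero N n k₀ f₀ hgen₀
  -- `n ≥ #X` by a rank argument
  have hn' : Fintype.card (X N) ≤ n := by
    by_contra hlt
    rw [not_le] at hlt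
    apply hP
    -- the product of an `X × n` and an `n × X` matrix with `n < #X` is singular
    have hrank : (Fmat k₀ f₀ τ₀ * P).rank < Fintype.card (X N) := by
      calc (Fmat k₀ f₀ τ₀ * P).rank ≤ P.rank := Matrix.rank_mul_le_right _ _
        _ ≤ Fintype.card (Fin n) := Matrix.rank_le_card_height _
        _ = n := Fintype.card_fin n
        _ < Fintype.card (X N) := hlt
    by_contra hdet
    have hunit : IsUnit (Fmat k₀ f₀ τ₀ * P) := (Matrix.isUnit_iff_isUnit_det _).mpr
      (isUnit_iff_ne_zero.mpr hdet)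
    rw [Matrix.rank_of_isUnit _ hunit] at hrank
    exact lt_irrefl _ hrank
  have hcard : Fintype.card (X N) = Fintype.card (Fin n) := by
    rw [Fintype.card_fin]; exact le_antisymm hn' hn
  let e : X N ≃ Fin n := Fintype.equivOfCardEq hcard
  refine ⟨fun y => k₀ (e y), fun y => f₀ (e y), ?_, ?_, τ₀, ?_⟩
  · intro w g
    obtain ⟨p, hp⟩ := hgen₀ w g
    refine ⟨fun y => p (e y), ?_⟩
    rw [hp]
    exact (Equiv.sum_comp e (fun j => (p j : ℍ → ℂ) * (f₀ j : ℍ → ℂ))).symm
  · intro w p hp
    have := hind₀ w (fun j => ModularForm.mcast (by simp) (p (e.symm j))) (by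
      rw [← hp, ← Equiv.sum_comp e]
      refine Finset.sum_congr rfl fun y _ => ?_
      funext τ
      simp only [Pi.mul_apply, ModularForm.coe_mcast]
      have hy : e.symm (e y) = y := e.symm_apply_apply y
      rw [hy])
    intro y
    have h2 := this (e y)
    rw [ModularForm.mcast_eq_zero_iff] at h2
    have hy : e.symm (e y) = y := e.symm_apply_apply y
    rw [hy] at h2
    exact h2
  · -- determinant: `Fmat k f τ₀ = (Fmat k₀ f₀ τ₀).submatrix id e`
    have hF : Fmat (fun y => k₀ (e y)) (fun y => f₀ (e y)) τ₀ =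
        (Fmat k₀ f₀ τ₀).submatrix id e := rfl
    rw [hF]
    intro h0
    apply hP
    have : Fmat k₀ f₀ τ₀ * P =
        (Fmat k₀ f₀ τ₀).submatrix id e * P.submatrix e id := by
      rw [Matrix.submatrix_mul_equiv]
      simp
    rw [this, Matrix.det_mul, h0, zero_mul]

end Fermat.Agent.S20
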