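import Mathlib
import Fermat.Prelude.Def_ModularCurve_GenusNumerics

/-!
# S20: shared definitions for the dimension formula of `S₂(Γ₀(N))`

`X N`      : the coset space `SL(2,ℤ) ⧸ Γ₀(N)` (finite, with the left `SL(2,ℤ)`-action).
`Γ N`      : `Γ₀(N)` as a subgroup of `GL(2,ℝ)` (this is what `ModularForm`/`CuspForm` want).
`tw k f x` : the translate `f ∣[k] g⁻¹` of `f` where `g` is a representative of the coset `x`.
`Fmat k f τ` : the "fundamental matrix" `(tw (k j) (f j) x τ)_{x, j}`.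
-/

set_option autoImplicit false

open UpperHalfPlane ModularForm CongruenceSubgroup Matrix.SpecialLinearGroup
open scoped MatrixGroups ModularForm Manifold

namespace Fermat.Agent.S20

noncomputable section

/-- `Γ₀(N)` as a subgroup of `GL(2,ℝ)`. Reducible: it is literally what the coercion produces. -/
abbrev Γ (N : ℕ) : Subgroup (GL (Fin 2) ℝ) := (Gamma0 N).map (mapGL ℝ)

/-- The coset space `SL(2,ℤ) ⧸ Γ₀(N)`. -/
def X (N : ℕ) : Type := SL(2, ℤ) ⧸ Gamma0 N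

instance instFiniteX (N : ℕ) [NeZero N] : Finite (X N) :=
  inferInstanceAs (Finite (SL(2, ℤ) ⧸ Gamma0 N))

instance instFintypeX (N : ℕ) [NeZero N] : Fintype (X N) := Fintype.ofFinite _

instance instDecidableEqX (N : ℕ) : DecidableEq (X N) := Classical.decEq _

instance instMulActionX (N : ℕ) : MulAction SL(2, ℤ) (X N) :=
  inferInstanceAs (MulAction SL(2, ℤ) (SL(2, ℤ) ⧸ Gamma0 N))

/-- The coset of `g`. -/
def X.mk {N : ℕ} (g : SL(2, ℤ)) : X N := (QuotientGroup.mk g : SL(2, ℤ) ⧸ Gamma0 N)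

/-- A representative of a coset. -/
def X.rep {N : ℕ} (x : X N) : SL(2, ℤ) := Quotient.out (s := QuotientGroup.leftRel (Gamma0 N)) x

@[simp] lemma X.mk_rep {N : ℕ} (x : X N) : X.mk (X.rep x) = x :=
  Quotient.out_eq (s := QuotientGroup.leftRel (Gamma0 N)) x

lemma X.mk_surjective {N : ℕ} : Function.Surjective (X.mk : SL(2, ℤ) → X N) :=
  fun x => ⟨X.rep x, X.mk_rep x⟩

lemma X.mk_eq_mk {N : ℕ} {g h : SL(2, ℤ)} : (X.mk g : X N) = X.mk h ↔ g⁻¹ * h ∈ Gamma0 N :=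
  QuotientGroup.eq

lemma X.smul_mk {N : ℕ} (h g : SL(2, ℤ)) : h • (X.mk g : X N) = X.mk (h * g) := rfl

lemma X.card_eq_index (N : ℕ) [NeZero N] : Fintype.card (X N) = (Gamma0 N).index := by
  rw [← Nat.card_eq_fintype_card]; rfl

/-- The translate of `f` by (the inverse of a representative of) the coset `x`. -/
def tw {N : ℕ} (k : ℤ) (f : ℍ → ℂ) (x : X N) : ℍ → ℂ := f ∣[k] (X.rep x)⁻¹

/-- `f` is invariant under `Γ₀(N)` in weight `k`. -/
def SlashInv (N : ℕ) (k : ℤ) (f : ℍ → ℂ) : Prop := ∀ γ ∈ Gamma0 N, f ∣[k] γ = f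

lemma inv_of_modularForm {N : ℕ} {k : ℤ} {F : Type*} [FunLike F ℍ ℂ]
    [SlashInvariantFormClass F (Γ N) k] (f : F) : SlashInv N k f := by
  intro γ hγ
  exact SlashInvariantFormClass.slash_action_eq f _ (Subgroup.mem_map_of_mem _ hγ)

lemma tw_mk {N : ℕ} {k : ℤ} {f : ℍ → ℂ} (hf : SlashInv N k f) (g : SL(2, ℤ)) :
    tw k f (X.mk g : X N) = f ∣[k] g⁻¹ := by
  have h : (X.mk (X.rep (X.mk g : X N)) : X N) = X.mk g := X.mk_rep _
  rw [X.mk_eq_mk] at h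
  have h2 : g⁻¹ = ((X.rep (X.mk g : X N))⁻¹ * g)⁻¹ * (X.rep (X.mk g : X N))⁻¹ := by group
  rw [tw]
  conv_rhs => rw [h2, SlashAction.slash_mul, hf _ (inv_mem h)]

lemma tw_slash {N : ℕ} {k : ℤ} {f : ℍ → ℂ} (hf : SlashInv N k f) (x : X N) (h : SL(2, ℤ)) :
    (tw k f x) ∣[k] h = tw k f (h⁻¹ • x) := by
  obtain ⟨g, rfl⟩ := X.mk_surjective x
  rw [X.smul_mk, tw_mk hf, tw_mk hf, ← SlashAction.slash_mul, mul_inv_rev, inv_inv]

/-- The basic transformation law: `(tw k f x)(h • τ) = (cτ+d)^k · tw k f (h⁻¹ • x) τ`. -/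
lemma tw_smul_apply {N : ℕ} {k : ℤ} {f : ℍ → ℂ} (hf : SlashInv N k f) (x : X N) (h : SL(2, ℤ))
    (τ : ℍ) : tw k f x (h • τ) = denom h τ ^ k * tw k f (h⁻¹ • x) τ := by
  have := congrFun (tw_slash hf x h) τ
  rw [SL_slash_apply] at this
  rw [← this, mul_comm, mul_assoc, ← zpow_add₀ (denom_ne_zero _ _)]
  simp

lemma tw_mul {N : ℕ} (k₁ k₂ : ℤ) (f g : ℍ → ℂ) (x : X N) :
    tw (k₁ + k₂) (f * g) x = tw k₁ f x * tw k₂ g x := by
  simp only [tw, mul_slash_SL2]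

lemma tw_add {N : ℕ} (k : ℤ) (f g : ℍ → ℂ) (x : X N) :
    tw k (f + g) x = tw k f x + tw k g x := by
  simp only [tw, SlashAction.add_slash]

lemma tw_smul {N : ℕ} (k : ℤ) (c : ℂ) (f : ℍ → ℂ) (x : X N) :
    tw k (c • f) x = c • tw k f x := by
  simp only [tw, SL_smul_slash]

lemma tw_zero {N : ℕ} (k : ℤ) (x : X N) : tw k (0 : ℍ → ℂ) x = 0 := by
  simp only [tw, SlashAction.zero_slash]

lemma tw_sum {N : ℕ} {ι : Type*} (s : Finset ι) (k : ℤ) (f : ι → ℍ → ℂ) (x : X N) :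
    tw k (∑ i ∈ s, f i) x = ∑ i ∈ s, tw k (f i) x := by
  simp only [tw, SlashAction.sum_slash]

/-- Level one forms are unchanged by `tw`. -/
lemma tw_levelOne {N : ℕ} {k : ℤ} {F : Type*} [FunLike F ℍ ℂ]
    [SlashInvariantFormClass F 𝒮ℒ k] (p : F) (x : X N) : tw k (p : ℍ → ℂ) x = p := by
  rw [tw, SL_slash]
  exact SlashInvariantFormClass.slash_action_eq p _ ⟨_, rfl⟩

lemma tw_mdifferentiable {N : ℕ} {k : ℤ} {f : ℍ → ℂ} (hf : MDiff f) (x : X N) :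
    MDiff (tw k f x) := by
  rw [tw, SL_slash]
  exact hf.slash k _

lemma tw_isBoundedAtImInfty {N : ℕ} [NeZero N] {k : ℤ} (f : ModularForm (Γ N) k) (x : X N) :
    IsBoundedAtImInfty (tw k (f : ℍ → ℂ) x) :=
  ModularFormClass.bdd_at_infty_slash f _

lemma tw_isZeroAtImInfty {N : ℕ} [NeZero N] {k : ℤ} (f : CuspForm (Γ N) k) (x : X N) :
    IsZeroAtImInfty (tw k (f : ℍ → ℂ) x) :=
  CuspFormClass.zero_at_infty_slash f _

lemma slash_eq_tw {N : ℕ} {k : ℤ} {f : ℍ → ℂ} (hf : SlashInv N k f) (γ : SL(2, ℤ)) :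
    f ∣[k] γ = tw k f (X.mk γ⁻¹ : X N) := by
  rw [tw_mk hf, inv_inv]

lemma Γ_mem_iff {N : ℕ} {g : GL (Fin 2) ℝ} :
    g ∈ Γ N ↔ ∃ γ ∈ Gamma0 N, mapGL ℝ γ = g := Subgroup.mem_map

/-- Constructor: a holomorphic `Γ₀(N)`-invariant function all of whose `SL(2,ℤ)`-translates are
bounded at `i∞` is a modular form of level `Γ₀(N)`. -/
def mkMF (N : ℕ) [NeZero N] (k : ℤ) (f : ℍ → ℂ) (hinv : SlashInv N k f) (hol : MDiff f)
    (hbd : ∀ γ : SL(2, ℤ), IsBoundedAtImInfty (f ∣[k] γ)) : ModularForm (Γ N) k where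
  toFun := f
  slash_action_eq' := by
    rintro _ ⟨γ, hγ, rfl⟩
    exact hinv γ hγ
  holo' := hol
  bdd_at_cusps' {c} hc := by
    rw [Subgroup.IsArithmetic.isCusp_iff_isCusp_SL2Z] at hc
    rw [OnePoint.isBoundedAt_iff_forall_SL2Z hc]
    exact fun γ _ => hbd γ

@[simp] lemma coe_mkMF (N : ℕ) [NeZero N] (k : ℤ) (f : ℍ → ℂ) (hinv : SlashInv N k f) (hol : MDiff f)
    (hbd : ∀ γ : SL(2, ℤ), IsBoundedAtImInfty (f ∣[k] γ)) :
    ⇑(mkMF N k f hinv hol hbd) = f := rfl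

/-- Constructor for cusp forms of level `Γ₀(N)`. -/
def mkCF (N : ℕ) [NeZero N] (k : ℤ) (f : ℍ → ℂ) (hinv : SlashInv N k f) (hol : MDiff f)
    (hz : ∀ γ : SL(2, ℤ), IsZeroAtImInfty (f ∣[k] γ)) : CuspForm (Γ N) k where
  toFun := f
  slash_action_eq' := by
    rintro _ ⟨γ, hγ, rfl⟩
    exact hinv γ hγ
  holo' := hol
  zero_at_cusps' {c} hc := by
    rw [Subgroup.IsArithmetic.isCusp_iff_isCusp_SL2Z] at hc
    rw [OnePoint.isZeroAt_iff_forall_SL2Z hc]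
    exact fun γ _ => hz γ

@[simp] lemma coe_mkCF (N : ℕ) [NeZero N] (k : ℤ) (f : ℍ → ℂ) (hinv : SlashInv N k f) (hol : MDiff f)
    (hz : ∀ γ : SL(2, ℤ), IsZeroAtImInfty (f ∣[k] γ)) :
    ⇑(mkCF N k f hinv hol hz) = f := rfl

/-- Constructor for level one modular forms. -/
def mkMF1 (k : ℤ) (f : ℍ → ℂ) (hinv : ∀ γ : SL(2, ℤ), f ∣[k] γ = f) (hol : MDiff f)
    (hbd : IsBoundedAtImInfty f) : ModularForm 𝒮ℒ k where
  toFun := f
  slash_action_eq' := by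
    rintro _ ⟨γ, rfl⟩
    exact hinv γ
  holo' := hol
  bdd_at_cusps' {c} hc := by
    rw [OnePoint.isBoundedAt_iff_forall_SL2Z hc]
    intro γ _
    rw [hinv γ]; exact hbd

@[simp] lemma coe_mkMF1 (k : ℤ) (f : ℍ → ℂ) (hinv : ∀ γ : SL(2, ℤ), f ∣[k] γ = f) (hol : MDiff f)
    (hbd : IsBoundedAtImInfty f) : ⇑(mkMF1 k f hinv hol hbd) = f := rfl

/-- Constructor for level one cusp forms. -/
def mkCF1 (k : ℤ) (f : ℍ → ℂ) (hinv : ∀ γ : SL(2, ℤ), f ∣[k] γ = f) (hol : MDiff f)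
    (hz : IsZeroAtImInfty f) : CuspForm 𝒮ℒ k where
  toFun := f
  slash_action_eq' := by
    rintro _ ⟨γ, rfl⟩
    exact hinv γ
  holo' := hol
  zero_at_cusps' {c} hc := by
    rw [OnePoint.isZeroAt_iff_forall_SL2Z hc]
    intro γ _
    rw [hinv γ]; exact hz

@[simp] lemma coe_mkCF1 (k : ℤ) (f : ℍ → ℂ) (hinv : ∀ γ : SL(2, ℤ), f ∣[k] γ = f) (hol : MDiff f)
    (hz : IsZeroAtImInfty f) : ⇑(mkCF1 k f hinv hol hz) = f := rfl

/-- The base point of `X N` (the trivial coset). -/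
def X.one (N : ℕ) : X N := X.mk 1

lemma tw_one {N : ℕ} {k : ℤ} {f : ℍ → ℂ} (hf : SlashInv N k f) : tw k f (X.one N) = f := by
  rw [X.one, tw_mk hf]; simp

/-- The fundamental matrix of a family of forms. -/
def Fmat {N : ℕ} {ι : Type*} (k : ι → ℤ) (f : ∀ j, ModularForm (Γ N) (k j)) (τ : ℍ) :
    Matrix (X N) ι ℂ := fun x j => tw (k j) (f j : ℍ → ℂ) x τ

/-- The family `f` generates all modular forms of level `Γ₀(N)` over the level one forms. -/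
def Gen {N : ℕ} {ι : Type*} [Fintype ι] (k : ι → ℤ) (f : ∀ j, ModularForm (Γ N) (k j)) : Prop :=
  ∀ (w : ℤ) (g : ModularForm (Γ N) w), ∃ p : ∀ j, ModularForm 𝒮ℒ (w - k j),
    (g : ℍ → ℂ) = ∑ j, (p j : ℍ → ℂ) * (f j : ℍ → ℂ)

/-- The family `f` is linearly independent over the level one forms. -/
def Indep {N : ℕ} {ι : Type*} [Fintype ι] (k : ι → ℤ) (f : ∀ j, ModularForm (Γ N) (k j)) : Prop :=
  ∀ (w : ℤ) (p : ∀ j, ModularForm 𝒮ℒ (w - k j)),
    (∑ j, (p j : ℍ → ℂ) * (f j : ℍ → ℂ)) = 0 → ∀ j, p j = 0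

/-- The permutation matrix of `h ∈ SL(2,ℤ)` acting on functions on `X N`:
`(Pmat h *ᵥ v) x = v (h⁻¹ • x)`. -/
def Pmat {N : ℕ} (h : SL(2, ℤ)) : Matrix (X N) (X N) ℂ :=
  fun x y => if y = h⁻¹ • x then 1 else 0

/-- Number of fixed points of `h` on `X N`. -/
def fixCount (N : ℕ) [NeZero N] (h : SL(2, ℤ)) : ℕ :=
  Fintype.card {x : X N // h • x = x}

lemma Pmat_apply {N : ℕ} (h : SL(2, ℤ)) (x y : X N) :
    (Pmat h : Matrix (X N) (X N) ℂ) x y = if y = h⁻¹ • x then 1 else 0 := rfl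

lemma Pmat_mul_apply {N : ℕ} [NeZero N] {ι : Type*} (h : SL(2, ℤ)) (M : Matrix (X N) ι ℂ)
    (x : X N) (j : ι) : ((Pmat h : Matrix (X N) (X N) ℂ) * M) x j = M (h⁻¹ • x) j := by
  simp [Matrix.mul_apply, Pmat_apply]

lemma Pmat_mulVec {N : ℕ} [NeZero N] (h : SL(2, ℤ)) (v : X N → ℂ) (x : X N) :
    (Pmat h : Matrix (X N) (X N) ℂ).mulVec v x = v (h⁻¹ • x) := by
  simp [Matrix.mulVec, dotProduct, Pmat_apply]

lemma Pmat_one {N : ℕ} [NeZero N] : (Pmat (1 : SL(2, ℤ)) : Matrix (X N) (X N) ℂ) = 1 := by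
  ext x y
  simp [Pmat_apply, Matrix.one_apply, eq_comm]

lemma Pmat_mul {N : ℕ} [NeZero N] (g h : SL(2, ℤ)) :
    (Pmat (g * h) : Matrix (X N) (X N) ℂ) = Pmat g * Pmat h := by
  ext x y
  rw [Pmat_mul_apply, Pmat_apply, Pmat_apply, mul_inv_rev, mul_smul]

lemma Pmat_pow {N : ℕ} [NeZero N] (g : SL(2, ℤ)) (m : ℕ) :
    (Pmat (g ^ m) : Matrix (X N) (X N) ℂ) = Pmat g ^ m := by
  induction m with
  | zero => simp [Pmat_one]
  | succ m ih => rw [pow_succ, Pmat_mul, ih, pow_succ]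

lemma Pmat_transpose {N : ℕ} (h : SL(2, ℤ)) :
    (Pmat h : Matrix (X N) (X N) ℂ).transpose = Pmat h⁻¹ := by
  ext x y
  simp only [Matrix.transpose_apply, Pmat_apply, inv_inv]
  by_cases hxy : x = h⁻¹ • y
  · rw [if_pos hxy, if_pos]; rw [hxy, smul_inv_smul]
  · rw [if_neg hxy, if_neg]; intro h2; exact hxy (by rw [h2, inv_smul_smul])

lemma trace_Pmat {N : ℕ} [NeZero N] (h : SL(2, ℤ)) :
    Matrix.trace (Pmat h : Matrix (X N) (X N) ℂ) = fixCount N h := by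
  simp only [Matrix.trace, Matrix.diag_apply, Pmat_apply, fixCount]
  rw [Finset.sum_boole, Fintype.card_subtype]
  congr 2
  ext x
  simp only [Finset.mem_filter, Finset.mem_univ, true_and]
  constructor
  · intro hx; conv_lhs => rw [hx]
    exact smul_inv_smul h x
  · intro hx; conv_rhs => rw [← hx]
    exact (inv_smul_smul h x).symm

/-- Transformation law of the fundamental matrix under `SL(2,ℤ)`. -/
lemma Fmat_smul {N : ℕ} [NeZero N] {ι : Type*} [Fintype ι] [DecidableEq ι] (k : ι → ℤ)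
    (f : ∀ j, ModularForm (Γ N) (k j)) (h : SL(2, ℤ)) (τ : ℍ) :
    Fmat k f (h • τ) = (Pmat h : Matrix (X N) (X N) ℂ) * Fmat k f τ *
      Matrix.diagonal (fun j => denom h τ ^ k j) := by
  ext x j
  rw [Matrix.mul_diagonal, Pmat_mul_apply, Fmat, Fmat, tw_smul_apply (inv_of_modularForm (f j)),
    mul_comm]

lemma Fmat_T_smul {N : ℕ} [NeZero N] {ι : Type*} (k : ι → ℤ)
    (f : ∀ j, ModularForm (Γ N) (k j)) (τ : ℍ) :
    Fmat k f (ModularGroup.T • τ) = (Pmat ModularGroup.T : Matrix (X N) (X N) ℂ) * Fmat k f τ := by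
  ext x j
  rw [Pmat_mul_apply, Fmat, Fmat, tw_smul_apply (inv_of_modularForm (f j))]
  have hd : denom (ModularGroup.T : SL(2, ℤ)) τ = 1 := by
    rw [ModularGroup.denom_apply]
    simp [ModularGroup.T]
  rw [hd, one_zpow, one_mul]

end

end Fermat.Agent.S20
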